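import Fermat.Prelude.Def_ModularForm_HeckeOperator
import Fermat.Prelude.Thm_CuspFormClass_isZeroAt_heckeU
import Fermat.Agent.WeightOneGalois.Interface

/-!
# The part of a weight-one eigenform supported on indices prime to the level

`f' = N⁻¹ ∑_b c(b) f ∣ (1 b/N; 0 1)` with `c(b) = ∑_{a unit} e(-ab/N)` has the coefficients
`[(n, N) = 1] f_n`, level `Γ₀(N²)` with character `ε`, and all coefficients integral.
-/

noncomputable section

open UpperHalfPlane hiding I
open CongruenceSubgroup ModularFormClass Filter Function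
open scoped MatrixGroups ModularForm Manifold Topology

namespace Fermat.Agent.WeightOneGalois

/-- Translation by `x` as a matrix. -/
def shiftGL (x : ℝ) : GL (Fin 2) ℝ :=
  ModularForm.upperTriangularGL 1 x 1 (by norm_num)

theorem slash_shiftGL_apply (f : ℍ → ℂ) (k : ℤ) (x : ℝ) (τ : ℍ) :
    (f ∣[k] shiftGL x) τ = f (x +ᵥ τ) := by
  have hdet : (shiftGL x).det.val = 1 := by
    simp [shiftGL, Matrix.det_fin_two]
  have hd : denom (shiftGL x) τ = 1 := by simp [shiftGL, denom]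
  have hs : shiftGL x • τ = x +ᵥ τ := by
    refine UpperHalfPlane.ext ?_
    rw [UpperHalfPlane.coe_smul_of_det_pos (by rw [hdet]; exact one_pos), UpperHalfPlane.coe_vadd]
    rw [hd, div_one]
    simp [shiftGL, num, add_comm]
  rw [ModularForm.slash_apply, hd, hs, hdet]
  simp [UpperHalfPlane.σ, hdet]

variable {N : ℕ} [NeZero N]

/-- `∑_{a unit} e(-ab/N)`. -/
def depWeight (b : ZMod N) : ℂ :=
  ∑ a : (ZMod N)ˣ, ZMod.stdAddChar (-((a : ZMod N) * b))

theorem depWeight_unit_mul (u : (ZMod N)ˣ) (b : ZMod N) :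
    depWeight ((u : ZMod N) * b) = depWeight b := by
  unfold depWeight
  refine Fintype.sum_equiv (Equiv.mulRight u) _ _ fun a => ?_
  simp [mul_assoc]

/-- The form depleted to the indices prime to `N`. -/
def depForm (f : ℍ → ℂ) : ℍ → ℂ :=
  (N : ℂ)⁻¹ • ∑ b : ZMod N, depWeight b • f ∣[(1 : ℤ)] shiftGL ((b.val : ℝ) / N)

theorem qCoeff_shift {f : ℍ → ℂ} (hf : MF.IsQFn f) (x : ℝ) :
    MF.IsQFn (f ∣[(1 : ℤ)] shiftGL x) ∧
      ∀ n : ℕ, qCoeff (f ∣[(1 : ℤ)] shiftGL x) n =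
        qCoeff f n * Periodic.qParam 1 (x : ℂ) ^ n := by
  have hsum : ∀ τ : ℍ, HasSum (fun n => qCoeff f n * Periodic.qParam 1 (x : ℂ) ^ n •
      Periodic.qParam 1 (τ : ℂ) ^ n) ((f ∣[(1 : ℤ)] shiftGL x) τ) := by
    intro τ
    rw [slash_shiftGL_apply]
    have h := hasSum_qExpansion one_pos hf.periodic hf.mdiff hf.bdd (x +ᵥ τ)
    have hq : Periodic.qParam 1 (((x +ᵥ τ : ℍ)) : ℂ) =
        Periodic.qParam 1 (x : ℂ) * Periodic.qParam 1 (τ : ℂ) := by
      simp only [Periodic.qParam, UpperHalfPlane.coe_vadd, ← Complex.exp_add]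
      congr 1
      push_cast
      ring
    simp only [hq, mul_pow, smul_eq_mul] at h ⊢
    simpa [qCoeff, mul_assoc] using h
  have hsum' : ∀ τ : ℍ, HasSum (fun n => (qCoeff f n * Periodic.qParam 1 (x : ℂ) ^ n) •
      Periodic.qParam 1 (τ : ℂ) ^ n) ((f ∣[(1 : ℤ)] shiftGL x) τ) := fun τ => by
    simpa [smul_eq_mul, mul_assoc] using hsum τ
  have hq : MF.IsQFn (f ∣[(1 : ℤ)] shiftGL x) := by
    refine ⟨fun w => ?_, hf.mdiff.slash 1 _, isBoundedAtImInfty_of_hasSum_qExpansion one_pos hsum'⟩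
    simp only [Function.comp_apply]
    by_cases hw : 0 < w.im
    · have hw' : 0 < (w + ((1 : ℝ) : ℂ)).im := by simpa using hw
      rw [ofComplex_apply_of_im_pos hw', ofComplex_apply_of_im_pos hw, slash_shiftGL_apply,
        slash_shiftGL_apply]
      have h := hf.periodic ((x : ℂ) + w)
      simp only [Function.comp_apply] at h
      rw [ofComplex_apply_of_im_pos (by simpa using hw),
        ofComplex_apply_of_im_pos (by simpa using hw)] at h
      convert h using 2 <;> ext <;> simp [add_assoc]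
    · have hw' : (w + ((1 : ℝ) : ℂ)).im ≤ 0 := by simpa using hw
      rw [ofComplex_apply_of_im_nonpos hw', ofComplex_apply_of_im_nonpos (not_lt.mp hw)]
  refine ⟨hq, fun n => ?_⟩
  have h1 := (hasFPowerSeriesOnBall_cuspFunction one_pos hq.analyticAt hsum').hasFPowerSeriesAt
  have h2 : HasFPowerSeriesAt (cuspFunction 1 (f ∣[(1 : ℤ)] shiftGL x))
      (FormalMultilinearSeries.ofScalars ℂ fun m => qCoeff (f ∣[(1 : ℤ)] shiftGL x) m) 0 := by
    simpa [qCoeff, qExpansion_coeff, div_eq_mul_inv, mul_comm] using hq.analyticAt.hasFPowerSeriesAt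
  have h3 := congr_arg (FormalMultilinearSeries.coeff · n) (h1.eq_formalMultilinearSeries h2)
  simpa using h3.symm

theorem qParam_val_div (b : ZMod N) (n : ℕ) :
    Periodic.qParam 1 (((b.val : ℝ) / N : ℝ) : ℂ) ^ n =
      ZMod.stdAddChar ((n : ZMod N) * b) := by
  rw [show (n : ZMod N) * b = (((n * b.val : ℕ) : ℤ) : ZMod N) by simp,
    ZMod.stdAddChar_coe, Periodic.qParam, ← Complex.exp_nat_mul]
  congr 1
  push_cast
  field_simp

theorem isQFn_depForm {f : ℍ → ℂ} (hf : MF.IsQFn f) : MF.IsQFn (depForm (N := N) f) :=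
  (MF.IsQFn.sum _ fun _ _ => ((qCoeff_shift hf _).1.smul _)).smul _

/-- The coefficients of the depleted form. -/
theorem qCoeff_depForm {f : ℍ → ℂ} (hf : MF.IsQFn f) (n : ℕ) :
    qCoeff (depForm (N := N) f) n = if n.Coprime N then qCoeff f n else 0 := by
  classical
  have hs : ∀ (s : Finset (ZMod N)),
      qCoeff (∑ b ∈ s, depWeight b • f ∣[(1 : ℤ)] shiftGL ((b.val : ℝ) / N)) n =
        ∑ b ∈ s, depWeight b * (qCoeff f n * ZMod.stdAddChar ((n : ZMod N) * b)) := by
    intro s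
    induction s using Finset.induction_on with
    | empty => simp [qCoeff, qExpansion_zero]
    | insert b s hb ih =>
      rw [Finset.sum_insert hb, Finset.sum_insert hb, ← ih]
      have h1 := qCoeff_shift hf ((b.val : ℝ) / N)
      rw [qCoeff, qExpansion_add (h1.1.smul _).analyticAt
        (MF.IsQFn.sum _ fun _ _ => ((qCoeff_shift hf _).1.smul _)).analyticAt, map_add,
        qExpansion_smul h1.1.analyticAt, map_smul, smul_eq_mul]
      show _ + qCoeff _ n = _
      rw [← qParam_val_div, ← h1.2]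
      rfl
  have hsum : MF.IsQFn (∑ b : ZMod N, depWeight b • f ∣[(1 : ℤ)] shiftGL ((b.val : ℝ) / N)) :=
    MF.IsQFn.sum _ fun _ _ => ((qCoeff_shift hf _).1.smul _)
  rw [depForm, qCoeff, qExpansion_smul hsum.analyticAt, map_smul, smul_eq_mul]
  show (N : ℂ)⁻¹ * qCoeff _ n = _
  rw [hs]
  have e : ∀ b : ZMod N, depWeight b * (qCoeff f n * ZMod.stdAddChar ((n : ZMod N) * b)) =
      qCoeff f n * ∑ a : (ZMod N)ˣ, ZMod.stdAddChar (b * ((n : ZMod N) - (a : ZMod N))) := by
    intro b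
    rw [depWeight, mul_left_comm, Finset.sum_mul]
    refine congrArg _ (Finset.sum_congr rfl fun a _ => ?_)
    rw [← AddChar.map_add_eq_mul]
    exact congrArg _ (by ring)
  simp only [e, ← Finset.mul_sum]
  rw [Finset.sum_comm]
  simp only [AddChar.sum_mulShift _ (ZMod.isPrimitive_stdAddChar N), sub_eq_zero, ZMod.card]
  by_cases h : n.Coprime N
  · obtain ⟨u, hu⟩ := (ZMod.isUnit_iff_coprime n N).mpr h
    rw [if_pos h, Finset.sum_eq_single u (fun a _ ha => by
      rw [if_neg (fun hh => ha (Units.ext (hu.trans hh).symm)), Nat.cast_zero])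
      (fun hh => absurd (Finset.mem_univ u) hh), if_pos hu.symm]
    field_simp [NeZero.ne N]
  · rw [if_neg h, Finset.sum_eq_zero fun a _ => by
      rw [if_neg (fun hh : (n : ZMod N) = (a : ZMod N) => h
          ((ZMod.isUnit_iff_coprime n N).mp (by rw [hh]; exact a.isUnit))), Nat.cast_zero],
      mul_zero, mul_zero]

section Eigen

variable {ε : DirichletCharacter ℂ N} {f : CuspForm (Gamma1 N) 1}

/-- An element of `Γ₀(N²)` permutes the translates of `f` up to `ε`. -/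
theorem slash_depForm_term (hE : IsEigen ε f) {σ : SL(2, ℤ)} (hσ : σ ∈ Gamma0 (N ^ 2))
    (b : ZMod N) :
    ((⇑f : ℍ → ℂ) ∣[(1 : ℤ)] shiftGL ((b.val : ℝ) / N)) ∣[(1 : ℤ)] σ =
      ε (σ 1 1 : ZMod N) • ((⇑f : ℍ → ℂ) ∣[(1 : ℤ)]
        shiftGL ((((σ 1 1 : ZMod N) ^ 2 * b).val : ℝ) / N)) := by
  have hN : ((N : ℤ) ^ 2) ∣ σ 1 0 := by
    rw [Gamma0_mem, ZMod.intCast_zmod_eq_zero_iff_dvd] at hσ
    exact_mod_cast hσ
  obtain ⟨c₁, hc₁⟩ := hN
  set j : ℕ := ((σ 1 1 : ZMod N) ^ 2 * b).val with hj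
  have hdet : σ 0 0 * σ 1 1 - σ 0 1 * σ 1 0 = 1 := by
    have := σ.2; rwa [Matrix.det_fin_two] at this
  have hdvd : (N : ℤ) ∣ (b.val : ℤ) * σ 1 1 - (j : ℤ) * σ 0 0 := by
    rw [← ZMod.intCast_zmod_eq_zero_iff_dvd]
    have h2 := congrArg (Int.cast : ℤ → ZMod N) hdet
    push_cast at h2 ⊢
    rw [hj, ZMod.natCast_zmod_val, ZMod.natCast_zmod_val]
    rw [hc₁] at h2
    push_cast at h2
    rw [ZMod.natCast_self, zero_pow two_ne_zero, zero_mul, mul_zero, sub_zero] at h2
    linear_combination -b * (σ 1 1 : ZMod N) * h2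
  obtain ⟨e, he⟩ := hdvd
  let β : SL(2, ℤ) := ⟨!![σ 0 0 + b.val * N * c₁, σ 0 1 + e - j * b.val * c₁;
      σ 1 0, σ 1 1 - j * N * c₁], by
    rw [Matrix.det_fin_two_of, hc₁]
    rw [hc₁] at hdet
    linear_combination hdet + (N : ℤ) * c₁ * he⟩
  have hβ : β ∈ Gamma0 N := by
    rw [Gamma0_mem]
    show ((σ 1 0 : ℤ) : ZMod N) = 0
    rw [hc₁]; simp
  have hβd : (β 1 1 : ZMod N) = (σ 1 1 : ZMod N) := by
    show (((σ 1 1 - j * N * c₁ : ℤ)) : ZMod N) = _
    simp
  have key : shiftGL ((b.val : ℝ) / N) * (σ : GL (Fin 2) ℝ) =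
      (β : GL (Fin 2) ℝ) * shiftGL ((j : ℝ) / N) := by
    refine Units.ext ?_
    have hNr : (N : ℝ) ≠ 0 := Nat.cast_ne_zero.mpr (NeZero.ne N)
    have her : ((b.val : ℝ) * (σ 1 1 : ℤ) - (j : ℝ) * (σ 0 0 : ℤ)) = N * (e : ℤ) := by
      exact_mod_cast he
    have hcr : ((σ 1 0 : ℤ) : ℝ) = N ^ 2 * (c₁ : ℤ) := by exact_mod_cast hc₁
    have hco : ∀ (x : SL(2, ℤ)) (i k : Fin 2),
        ((x : GL (Fin 2) ℝ) : Matrix (Fin 2) (Fin 2) ℝ) i k = ((x i k : ℤ) : ℝ) := fun _ _ _ => rfl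
    ext u v
    simp only [Units.val_mul, Matrix.mul_apply, Fin.sum_univ_two, hco]
    fin_cases u <;> fin_cases v <;>
      simp [shiftGL, β, hcr, -ZMod.natCast_val] <;> field_simp <;>
      first | linear_combination her | linear_combination -her | ring
  rw [ModularForm.SL_slash, ← SlashAction.slash_mul, key, SlashAction.slash_mul,
    ← ModularForm.SL_slash, hE.char β hβ, hβd, ModularForm.smul_slash]
  congr 1
  rw [UpperHalfPlane.σ, if_pos (by simp [shiftGL, Matrix.det_fin_two])]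
  rfl

/-- The depleted form has character `ε` on `Γ₀(N²)`. -/
theorem depForm_slash (hE : IsEigen ε f) {σ : SL(2, ℤ)} (hσ : σ ∈ Gamma0 (N ^ 2)) :
    depForm (N := N) (⇑f) ∣[(1 : ℤ)] σ = ε (σ 1 1 : ZMod N) • depForm (N := N) (⇑f) := by
  obtain ⟨u, hu⟩ : IsUnit (σ 1 1 : ZMod N) :=
    IsUnit.of_mul_eq_one _ ((mul_comm _ _).trans (upperLeft_mul_lowerRight hσ))
  rw [depForm, ModularForm.SL_smul_slash, SlashAction.sum_slash, smul_comm (ε _) (N : ℂ)⁻¹]
  congr 1
  simp only [ModularForm.SL_smul_slash, slash_depForm_term hE hσ, Finset.smul_sum]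
  refine Fintype.sum_equiv (Units.mulLeft (u ^ 2)) _ _ fun b => ?_
  simp only [Units.mulLeft_apply]
  rw [depWeight_unit_mul (u ^ 2), smul_comm, Units.val_pow_eq_pow_val, hu]

/-- The depleted form is a cusp form on `Γ₁(N²)`. -/
theorem isCuspFn_depForm (hE : IsEigen ε f) :
    MF.IsCuspFn (Gamma1 (N ^ 2)) 1 (depForm (N := N) (⇑f)) := by
  have hqf : MF.IsQFn (⇑f : ℍ → ℂ) :=
    (MF.isFormFn_coe f).isQFn (by simp [ModularGroup.coe_T])
  have hz : ∀ γ : SL(2, ℤ), IsZeroAtImInfty (depForm (N := N) (⇑f) ∣[(1 : ℤ)] γ) := by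
    intro γ
    rw [depForm, ModularForm.SL_smul_slash, SlashAction.sum_slash]
    refine Filter.ZeroAtFilter.smul _ ?_
    refine Finset.sum_induction _ (fun g : ℍ → ℂ => IsZeroAtImInfty g)
      (fun _ _ ha hb => ha.add hb) (Filter.zero_zeroAtFilter _) fun b _ => ?_
    rw [ModularForm.SL_smul_slash, ModularForm.SL_slash]
    refine Filter.ZeroAtFilter.smul _ ?_
    have hc : IsCusp ((γ : GL (Fin 2) ℝ) • OnePoint.infty)
        (Gamma1 N : Subgroup (GL (Fin 2) ℝ)) := by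
      rw [Subgroup.IsArithmetic.isCusp_iff_isCusp_SL2Z, isCusp_SL2Z_iff']
      exact ⟨γ, rfl⟩
    let g : GL (Fin 2) ℚ := Matrix.GeneralLinearGroup.mkOfDetNeZero !![1, (b.val : ℚ) / N; 0, 1]
      (by simp [Matrix.det_fin_two_of])
    have hg : shiftGL ((b.val : ℝ) / N) = Matrix.GeneralLinearGroup.map (Rat.castHom ℝ) g := by
      ext u v
      fin_cases u <;> fin_cases v <;>
        simp [shiftGL, g, Matrix.GeneralLinearGroup.mkOfDetNeZero, -ZMod.natCast_val]
    have hc' : IsCusp (shiftGL ((b.val : ℝ) / N) • ((γ : GL (Fin 2) ℝ) • OnePoint.infty))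
        (Gamma1 N : Subgroup (GL (Fin 2) ℝ)) := by
      rw [Subgroup.IsArithmetic.isCusp_iff_isCusp_SL2Z, isCusp_SL2Z_iff] at hc ⊢
      obtain ⟨c, hc⟩ := hc
      rw [← hc, hg]
      exact ⟨g • c, by rw [← Rat.coe_castHom, OnePoint.map_smul]⟩
    exact (OnePoint.isZeroAt_iff rfl).mp
      (OnePoint.IsZeroAt.smul_iff.mp (CuspFormClass.zero_at_cusps f hc'))
  refine ⟨⟨fun γ hγ => ?_, (isQFn_depForm hqf).mdiff, fun γ => (hz γ).isBoundedAtImInfty⟩, hz⟩
  rw [Gamma1_mem] at hγ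
  have h := congrArg (ZMod.castHom (dvd_pow_self N two_ne_zero) (ZMod N)) hγ.2.1
  rw [depForm_slash hE (Gamma0_mem.mpr hγ.2.2), show (γ 1 1 : ZMod N) = 1 by simpa using h,
    map_one, one_smul]

/-- Coefficients at indices prime to the level are integral. -/
theorem isIntegral_qCoeff_of_coprime (hA : WeightOneArith) (hE : IsEigen ε f) :
    ∀ n : ℕ, n.Coprime N → IsIntegral ℤ (qCoeff f n) := by
  intro n
  induction n using Nat.strong_induction_on with
  | _ n ih =>
    intro hn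
    rcases eq_or_ne n 0 with rfl | h0
    · rw [show qCoeff (⇑f) 0 = 0 from
        ((MF.isFormFn_coe f).isQFn (by simp [ModularGroup.coe_T])).coeff_zero_of_isZeroAtImInfty
          (by simpa using (MF.isCuspFn_coe f).zero 1)]
      exact isIntegral_zero
    rcases eq_or_ne n 1 with rfl | h1
    · rw [hE.one]; exact isIntegral_one
    obtain ⟨p, hp, hpn⟩ := n.exists_prime_and_dvd h1
    obtain ⟨m, rfl⟩ := hpn
    have hpN : ¬ p ∣ N := (hp.coprime_iff_not_dvd).mp hn.coprime_mul_right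
    have hm : m.Coprime N := hn.coprime_mul_left
    have hm0 : 0 < m := Nat.pos_of_ne_zero fun h => h0 (by simp [h])
    have h := hE.hecke p hp hpN m
    rw [← eq_sub_iff_add_eq] at h
    rw [h]
    refine (((hA N ε f hE).1 p hp hpN).mul (ih m ?_ hm)).sub ((isIntegral_char ε _).mul ?_)
    · exact lt_mul_of_one_lt_left hm0 hp.one_lt
    · split_ifs with hd
      · obtain ⟨m', rfl⟩ := hd
        rw [Nat.mul_div_cancel_left _ hp.pos]
        refine ih m' ?_ hm.coprime_mul_left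
        have : 0 < m' := Nat.pos_of_mul_pos_left hm0
        calc m' ≤ p * m' := Nat.le_mul_of_pos_left _ hp.pos
          _ < p * (p * m') := lt_mul_of_one_lt_left hm0 hp.one_lt
      · exact isIntegral_zero

/-- The depleted form has integral coefficients. -/
theorem isIntegral_qCoeff_depForm (hA : WeightOneArith) (hE : IsEigen ε f) (n : ℕ) :
    IsIntegral ℤ (qCoeff (depForm (N := N) (⇑f)) n) := by
  rw [qCoeff_depForm ((MF.isFormFn_coe f).isQFn (by simp [ModularGroup.coe_T]))]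
  split_ifs with h
  · exact isIntegral_qCoeff_of_coprime hA hE n h
  · exact isIntegral_zero

end Eigen

end Fermat.Agent.WeightOneGalois
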