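import Fermat.Agent.WeightOneGalois.Period.Algebra
import Fermat.Agent.WeightOneGalois.Period.Coprime

/-!
# The congruence with weight two

For a prime `ℓ ≥ 5`, the product `g` of the depleted eigenform with the weight-one series of the
inverse Teichmüller character gives a homomorphism from the Hecke ring of `GT (N ℓ)` to `k` carrying
`T_p ↦ a_p` and `p ⟨p⟩ ↦ ε(p)`.
-/

noncomputable section

open UpperHalfPlane hiding I
open CongruenceSubgroup ModularFormClass Filter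
open scoped MatrixGroups ModularForm Manifold

namespace Fermat.Agent.WeightOneGalois

local notation "𝔸" => integralClosure ℤ ℂ

/-- The values of a character as integral elements. -/
def charB {n : ℕ} [NeZero n] (χ : DirichletCharacter ℂ n) (a : ZMod n) : 𝔸 :=
  ⟨χ a, isIntegral_char χ a⟩

@[simp] theorem coe_charB {n : ℕ} [NeZero n] (χ : DirichletCharacter ℂ n) (a : ZMod n) :
    ((charB χ a : 𝔸) : ℂ) = χ a := rfl

section Teich

variable {ℓ : ℕ} [hℓ : Fact ℓ.Prime] {k : Type} [Field k] [CharP k ℓ]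

/-- The inverse Teichmüller character attached to `φ`. -/
theorem exists_teich (φ : 𝔸 →+* k) (h2 : 2 < ℓ) :
    ∃ χ : DirichletCharacter ℂ ℓ, χ (-1) = -1 ∧
      ∀ d : ZMod ℓ, d ≠ 0 → φ (charB χ d) * ZMod.castHom dvd_rfl k d = 1 := by
  obtain ⟨z₀, hz₀⟩ : ∃ z : ℂ, IsPrimitiveRoot z (ℓ - 1) :=
    ⟨_, Complex.isPrimitiveRoot_exp (ℓ - 1) (by omega)⟩
  have : NeZero (ℓ - 1) := ⟨by omega⟩
  let z : 𝔸 := ⟨z₀, hz₀.isIntegral (by omega)⟩
  have hz : IsPrimitiveRoot z (ℓ - 1) :=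
    IsPrimitiveRoot.of_map_of_injective (f := (integralClosure ℤ ℂ).val) hz₀ Subtype.val_injective
  have hne : NeZero ((ℓ - 1 : ℕ) : k) := ⟨fun h => by
    rw [CharP.cast_eq_zero_iff k ℓ] at h
    exact absurd (Nat.le_of_dvd (by omega) h) (by omega)⟩
  have hw : IsPrimitiveRoot (φ z) (ℓ - 1) := by
    rw [← Polynomial.isRoot_cyclotomic_iff, ← Polynomial.map_cyclotomic (ℓ - 1) φ]
    exact (hz.isRoot_cyclotomic (by omega)).map
  have hzu : IsPrimitiveRoot (hz.isUnit (by omega)).unit (ℓ - 1) :=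
    IsPrimitiveRoot.coe_units_iff.mp (by simpa using hz)
  have hwu : IsPrimitiveRoot (Units.map (φ : 𝔸 →* k) (hz.isUnit (by omega)).unit) (ℓ - 1) :=
    IsPrimitiveRoot.coe_units_iff.mp (by simpa using hw)
  have hinv : ∀ d : (ZMod ℓ)ˣ, ∃ i : ℕ, φ z ^ i * ZMod.castHom dvd_rfl k (d : ZMod ℓ) = 1 := by
    intro d
    have hd : (ZMod.castHom dvd_rfl k ((d⁻¹ : (ZMod ℓ)ˣ) : ZMod ℓ)) ^ (ℓ - 1) = 1 := by
      rw [← map_pow, ← Units.val_pow_eq_pow_val, ZMod.units_pow_card_sub_one_eq_one,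
        Units.val_one, map_one]
    obtain ⟨i, -, hi⟩ := hw.eq_pow_of_pow_eq_one hd
    exact ⟨i, by rw [hi, ← map_mul, Units.inv_mul, map_one]⟩
  choose i hi using hinv
  have hmul : ∀ a b, z ^ i (a * b) = z ^ i a * z ^ i b := by
    intro a b
    have h1 : φ z ^ i (a * b) = φ z ^ (i a + i b) := by
      have h := hi (a * b)
      have h' : φ z ^ (i a + i b) * ZMod.castHom dvd_rfl k ((a * b : (ZMod ℓ)ˣ) : ZMod ℓ) = 1 := by
        rw [pow_add, Units.val_mul, map_mul, mul_mul_mul_comm, hi a, hi b, one_mul]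
      exact mul_right_cancel₀ (fun h0 => by rw [h0, mul_zero] at h; exact zero_ne_one h)
          (h.trans h'.symm)
    set uz := (hz.isUnit (by omega)).unit
    have h3 : uz ^ i (a * b) = uz ^ (i a + i b) := by
      rw [pow_eq_pow_iff_modEq, ← hzu.eq_orderOf, hwu.eq_orderOf, ← pow_eq_pow_iff_modEq]
      exact Units.ext (by simpa [uz] using h1)
    rw [← pow_add]
    simpa [uz] using congrArg (Units.val) h3
  have hone : z ^ i 1 = 1 := by
    have h := hmul 1 1
    rw [one_mul] at h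
    exact mul_left_cancel₀ (pow_ne_zero _ (hz.ne_zero (by omega))) (by rw [mul_one]; exact h.symm)
  let χu : (ZMod ℓ)ˣ →* ℂ :=
    { toFun := fun a => ((z ^ i a : 𝔸) : ℂ)
      map_one' := by simp [hone]
      map_mul' := fun a b => by rw [hmul]; simp }
  let χ : DirichletCharacter ℂ ℓ := MulChar.ofUnitHom χu.toHomUnits
  have hχ : ∀ a : (ZMod ℓ)ˣ, charB χ (a : ZMod ℓ) = z ^ i a := fun a => Subtype.ext (by
    rw [coe_charB, MulChar.ofUnitHom_coe]; rfl)
  have key : ∀ d : ZMod ℓ, d ≠ 0 → φ (charB χ d) * ZMod.castHom dvd_rfl k d = 1 := by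
    intro d hd
    obtain ⟨a, rfl⟩ := (isUnit_iff_ne_zero.mpr hd : IsUnit d)
    rw [hχ, map_pow]
    exact hi a
  refine ⟨χ, ?_, key⟩
  have h1 := key (-1) (neg_ne_zero.mpr one_ne_zero)
  have hsq : χ (-1) * χ (-1) = 1 := by rw [← map_mul]; simp
  rcases mul_self_eq_one_iff.mp hsq with h | h
  · exfalso
    rw [show charB χ (-1) = 1 from Subtype.ext (by simpa using h), map_one, one_mul, map_neg,
      map_one] at h1
    have : ((2 : ℕ) : k) = 0 := by push_cast; linear_combination -h1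
    rw [CharP.cast_eq_zero_iff k ℓ] at this
    exact absurd (Nat.le_of_dvd two_pos this) (by omega)
  · exact h

end Teich

section Eps

variable {N : ℕ} [NeZero N] {ε : DirichletCharacter ℂ N} {f : CuspForm (Gamma1 N) 1}

theorem isQFn_eigen (f : CuspForm (Gamma1 N) 1) : MF.IsQFn (⇑f : ℍ → ℂ) :=
  (MF.isFormFn_coe f).isQFn (by simp [ModularGroup.coe_T])

theorem IsEigen.neg_one (hE : IsEigen ε f) : ε (-1) = -1 := by
  have h := hE.char (-1) (by rw [Gamma0_mem]; simp)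
  have he : (((-1 : SL(2, ℤ)) 1 1 : ℤ) : ZMod N) = -1 := by simp
  rw [he] at h
  by_contra hne
  have hf : (⇑f : ℍ → ℂ) = 0 := by
    funext τ
    have h' := congrFun h τ
    have hd : denom ((-1 : SL(2, ℤ)) : GL (Fin 2) ℝ) (τ : ℂ) = -1 := by simp [denom]
    rw [ModularForm.SL_slash_apply, Pi.smul_apply, smul_eq_mul] at h'
    rw [hd] at h'
    have hs : (-1 : SL(2, ℤ)) • τ = τ := by simp
    rw [hs] at h'
    norm_num at h'
    have : (ε (-1) + 1) * f τ = 0 := by linear_combination -h'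
    exact (mul_eq_zero.mp this).resolve_left fun h0 => hne (eq_neg_of_add_eq_zero_left h0)
  have h1 := hE.one
  rw [qCoeff, hf, qExpansion_zero, map_zero] at h1
  exact zero_ne_one h1

end Eps

/-- The weight-two seed modulo `ℓ`. -/
structure Seed (M : ℕ) [NeZero M] {k : Type} [Field k] (φ : 𝔸 →+* k) where
  /-- The cusp form of weight two. -/
  g : ℍ → ℂ
  mem : g ∈ S2 M
  /-- The `q`-expansion of `g`, with coefficients in `𝔸`. -/
  ser : PowerSeries 𝔸
  ser_spec : ∀ n, ((PowerSeries.coeff n ser : 𝔸) : ℂ) = qCoeff g n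
  /-- The character through which `Γ₀(M²)` acts on `g`. -/
  psi : ZMod M →* 𝔸
  slash : ∀ σ : SL(2, ℤ), σ ∈ Gamma0 (M ^ 2) →
    g ∣[(2 : ℤ)] σ = (psi (σ 1 1 : ZMod M) : ℂ) • g
  ne_zero : φ (PowerSeries.coeff 1 ser) ≠ 0

section Theta

variable {M : ℕ} [NeZero M] {k : Type} [Field k] {φ : 𝔸 →+* k} (S : Seed M φ)

/-- `F` is congruent to `c g`, with all its translates. -/
def Seed.Cong (F : S2 M) (c : k) : Prop :=
  ∀ σ : SL(2, ℤ), σ ∈ Gamma0 (M ^ 2) → ∀ n : ℕ, ∃ x : 𝔸,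
    (x : ℂ) = qCoeff ((F : ℍ → ℂ) ∣[(2 : ℤ)] σ) n ∧
      φ x = c * φ (S.psi (σ 1 1 : ZMod M)) * φ (PowerSeries.coeff n S.ser)

theorem Seed.cong_self : S.Cong ⟨S.g, S.mem⟩ 1 := fun σ hσ n =>
  ⟨S.psi (σ 1 1 : ZMod M) * PowerSeries.coeff n S.ser, by
    rw [S.slash σ hσ, qCoeff_smul' (isQFn_of_mem S.mem)]
    simp [S.ser_spec], by rw [map_mul, one_mul]⟩

theorem Seed.cong_unique {F : S2 M} {c c' : k} (h : S.Cong F c) (h' : S.Cong F c') : c = c' := by
  obtain ⟨x, hx, hc⟩ := h 1 (one_mem _) 1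
  obtain ⟨x', hx', hc'⟩ := h' 1 (one_mem _) 1
  rw [Subtype.ext (hx.trans hx'.symm)] at hc
  have h1 : S.psi (((1 : SL(2, ℤ)) 1 1 : ℤ) : ZMod M) = 1 := by simp
  rw [h1, map_one, mul_one] at hc hc'
  exact mul_right_cancel₀ S.ne_zero (hc.symm.trans hc')

/-- `s` multiplies congruences by `a`. -/
def Seed.Scales (s : Module.End ℂ (S2 M)) (a : k) : Prop :=
  ∀ F c, S.Cong F c → S.Cong (s F) (a * c)

theorem Seed.scales_unique {s : Module.End ℂ (S2 M)} {a a' : k} (h : S.Scales s a)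
    (h' : S.Scales s a') : a = a' := by
  simpa using S.cong_unique (h _ _ S.cong_self) (h' _ _ S.cong_self)

theorem Seed.scales_one : S.Scales 1 1 := fun F c h => by simpa using h

theorem Seed.scales_mul {s s' : Module.End ℂ (S2 M)} {a a' : k} (h : S.Scales s a)
    (h' : S.Scales s' a') : S.Scales (s * s') (a * a') := fun F c hF => by
  rw [mul_assoc]; exact h _ _ (h' F c hF)

theorem Seed.scales_zero : S.Scales 0 0 := fun F c _ σ hσ n => ⟨0, by
  simp [qCoeff, qExpansion_zero], by simp⟩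

theorem Seed.scales_add {s s' : Module.End ℂ (S2 M)} {a a' : k} (h : S.Scales s a)
    (h' : S.Scales s' a') : S.Scales (s + s') (a + a') := fun F c hF σ hσ n => by
  obtain ⟨x, hx, hx'⟩ := h F c hF σ hσ n
  obtain ⟨y, hy, hy'⟩ := h' F c hF σ hσ n
  refine ⟨x + y, ?_, by rw [map_add, hx', hy']; ring⟩
  rw [LinearMap.add_apply, Submodule.coe_add, SlashAction.add_slash,
    qCoeff_add' (isQFn_of_mem (slash_mem (s F).2 hσ)) (isQFn_of_mem (slash_mem (s' F).2 hσ))]
  simp [hx, hy]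

theorem Seed.scales_neg {s : Module.End ℂ (S2 M)} {a : k} (h : S.Scales s a) :
    S.Scales (-s) (-a) := fun F c hF σ hσ n => by
  obtain ⟨x, hx, hx'⟩ := h F c hF σ hσ n
  refine ⟨-x, ?_, by rw [map_neg, hx']; ring⟩
  rw [LinearMap.neg_apply, Submodule.coe_neg, SlashAction.neg_slash,
    ← neg_one_smul ℂ (((s F : S2 M) : ℍ → ℂ) ∣[(2 : ℤ)] σ),
    qCoeff_smul' (isQFn_of_mem (slash_mem (s F).2 hσ))]
  simp [hx]

theorem Seed.scales_sEnd {p : ℕ} (hp : p.Prime) (hpM : ¬ p ∣ M) :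
    S.Scales (sEnd M hp hpM) (φ (S.psi (p : ZMod M))) := fun F c hF σ hσ n => by
  have hδ := dia_spec M hp hpM
  obtain ⟨x, hx, hx'⟩ := hF _ (mul_mem hδ.1 hσ) n
  refine ⟨x, ?_, ?_⟩
  · rw [hx, SlashAction.slash_mul]; rfl
  · rw [hx', lowerRight_mul hδ.1, hδ.2, map_mul, map_mul]; ring

theorem Seed.scales_tEnd {p : ℕ} (hp : p.Prime) (hpM : ¬ p ∣ M) {a : k}
    (h : ∀ n, φ (PowerSeries.coeff (n * p) S.ser) +
      (if p ∣ n then
        (p : k) * φ (S.psi (p : ZMod M)) * φ (PowerSeries.coeff (n / p) S.ser) else 0) =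
      a * φ (PowerSeries.coeff n S.ser)) :
    S.Scales (tEnd M hp hpM) a := fun F c hF σ hσ n => by
  have hδ := dia_spec M hp hpM
  obtain ⟨x, hx, hx'⟩ := hF σ hσ (n * p)
  obtain ⟨y, hy, hy'⟩ := hF _ (mul_mem hσ hδ.1) (n / p)
  rw [SlashAction.slash_mul] at hy
  rw [lowerRight_mul hσ, hδ.2, map_mul, map_mul] at hy'
  refine ⟨x + if p ∣ n then (p : 𝔸) * y else 0, ?_, ?_⟩
  · rw [show ((tEnd M hp hpM F : S2 M) : ℍ → ℂ) = tFun p (dia M hp hpM) F from rfl,
      tFun_slash hp hpM hδ F.2 hσ, qCoeff_tFun hp hpM hδ (slash_mem F.2 hσ)]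
    split_ifs <;> simp [hx, hy]
  · rw [map_add, hx']
    split_ifs with hd
    · have e := h n
      rw [if_pos hd] at e
      rw [map_mul, map_natCast, hy']
      linear_combination c * φ (S.psi (σ 1 1 : ZMod M)) * e
    · have e := h n
      rw [if_neg hd] at e
      rw [map_zero]
      linear_combination c * φ (S.psi (σ 1 1 : ZMod M)) * e

/-- The character of the Hecke ring. -/
theorem Seed.exists_hom
    (ha : ∀ p : ℕ, p.Prime → ¬ p ∣ M → ∃ a : k, ∀ n, φ (PowerSeries.coeff (n * p) S.ser) +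
      (if p ∣ n then
        (p : k) * φ (S.psi (p : ZMod M)) * φ (PowerSeries.coeff (n / p) S.ser) else 0) =
      a * φ (PowerSeries.coeff n S.ser)) :
    ∃ θ : heckeAlg M →+* k, ∀ (t : heckeAlg M) (a : k),
      S.Scales (t : Module.End ℂ (S2 M)) a → θ t = a := by
  let R : Subring (Module.End ℂ (S2 M)) :=
    { carrier := {s | ∃ a, S.Scales s a}
      one_mem' := ⟨1, S.scales_one⟩
      mul_mem' := fun ⟨a, h⟩ ⟨b, h'⟩ => ⟨a * b, S.scales_mul h h'⟩
      zero_mem' := ⟨0, S.scales_zero⟩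
      add_mem' := fun ⟨a, h⟩ ⟨b, h'⟩ => ⟨a + b, S.scales_add h h'⟩
      neg_mem' := fun ⟨a, h⟩ => ⟨-a, S.scales_neg h⟩ }
  have hle : heckeAlg M ≤ R := Subring.closure_le.mpr (by
    rintro s ⟨p, hp, hpM, rfl | rfl⟩
    · obtain ⟨a, h⟩ := ha p hp hpM
      exact ⟨a, S.scales_tEnd hp hpM h⟩
    · exact ⟨_, S.scales_sEnd hp hpM⟩)
  have hex : ∀ t : heckeAlg M, ∃ a, S.Scales (t : Module.End ℂ (S2 M)) a := fun t => hle t.2
  choose θ hθ using hex
  exact ⟨{ toFun := θ
           map_one' := S.scales_unique (hθ 1) S.scales_one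
           map_mul' := fun s t => S.scales_unique (hθ _) (S.scales_mul (hθ s) (hθ t))
           map_zero' := S.scales_unique (hθ 0) S.scales_zero
           map_add' := fun s t => S.scales_unique (hθ _) (S.scales_add (hθ s) (hθ t)) },
    fun t a h => S.scales_unique (hθ t) h⟩

end Theta

section Main

variable {N : ℕ} [NeZero N] {ε : DirichletCharacter ℂ N} {f : CuspForm (Gamma1 N) 1}
  {ℓ : ℕ} [Fact ℓ.Prime] {k : Type} [Field k] [CharP k ℓ]

/-- The constant term of the weight-one series reduces to `-1`: `χ a * a` reduces to one. -/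
theorem map_sum_teich {φ : 𝔸 →+* k} {χ : DirichletCharacter ℂ ℓ}
    (hχ : ∀ a : ZMod ℓ, a ≠ 0 → φ (charB χ a) * ZMod.castHom dvd_rfl k a = 1) :
    φ (∑ a ∈ Finset.range ℓ, charB χ (a : ZMod ℓ) * (a : 𝔸)) = -1 := by
  have hℓ : ℓ.Prime := Fact.out
  rw [map_sum, ← Finset.insert_erase (Finset.mem_range.mpr hℓ.pos),
    Finset.sum_insert (Finset.notMem_erase _ _), Finset.sum_congr rfl (g := fun _ => (1 : k))
      fun a ha => ?_]
  · rw [Finset.sum_const, Finset.card_erase_of_mem (Finset.mem_range.mpr hℓ.pos),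
      Finset.card_range, nsmul_one, Nat.cast_sub hℓ.one_le, CharP.cast_eq_zero k ℓ]
    simp
  · obtain ⟨ha0, ha⟩ := Finset.mem_erase.mp ha
    rw [Finset.mem_range] at ha
    have hne : (a : ZMod ℓ) ≠ 0 := fun h => ha0 (Nat.eq_zero_of_dvd_of_lt
      ((ZMod.natCast_eq_zero_iff a ℓ).mp h) ha)
    have := hχ _ hne
    rw [map_natCast] at this
    rw [map_mul, map_natCast]
    exact this

/-- The Hecke ring at level `N ℓ` maps to the eigenvalues of `f` modulo `ℓ`. -/
theorem exists_theta (hEis : EisOne) (hA : WeightOneArith) (hE : IsEigen ε f) (h5 : 5 ≤ ℓ)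
    (φ : 𝔸 →+* k) :
    ∃ θ : heckeAlg (N * ℓ) →+* k, ∀ (p : ℕ) (hp : p.Prime) (hpM : ¬ p ∣ N * ℓ) (a e : 𝔸),
      (a : ℂ) = qCoeff f p → (e : ℂ) = ε (p : ZMod N) →
        θ (tGen (N * ℓ) hp hpM) = φ a ∧ θ (sGen (N * ℓ) hp hpM) * (p : k) = φ e := by
  have hℓ : ℓ.Prime := Fact.out
  obtain ⟨χ, hχ1, hχ⟩ := exists_teich φ (by omega)
  obtain ⟨E, es, hEf, hEs, hEq, hE0, hEn⟩ := hEis ℓ hℓ h5 χ hχ1
  set M := N * ℓ with hM
  let fd : PowerSeries 𝔸 := PowerSeries.mk fun n =>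
    ⟨qCoeff (depForm (N := N) (⇑f)) n, isIntegral_qCoeff_depForm hA hE n⟩
  let psi : ZMod M →* 𝔸 :=
    { toFun := fun a => charB ε (ZMod.castHom (dvd_mul_right N ℓ) _ a) *
        charB χ (ZMod.castHom (dvd_mul_left ℓ N) _ a)
      map_one' := Subtype.ext (by simp only [map_one, MulMemClass.coe_mul, coe_charB]; simp)
      map_mul' := fun a b => Subtype.ext (by
        simp only [map_mul, MulMemClass.coe_mul, coe_charB]; ring) }
  set g : ℍ → ℂ := depForm (N := N) (⇑f) * E with hg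
  have hdep := isCuspFn_depForm hE
  have hsl : ∀ σ : SL(2, ℤ), σ ∈ Gamma0 (M ^ 2) →
      g ∣[(2 : ℤ)] σ = (psi (σ 1 1 : ZMod M) : ℂ) • g := by
    intro σ hσ
    have h1 : σ ∈ Gamma0 (N ^ 2) := by
      rw [Gamma0_mem, ZMod.intCast_zmod_eq_zero_iff_dvd] at hσ ⊢
      exact (Int.natCast_dvd_natCast.mpr (by rw [hM, mul_pow]; exact dvd_mul_right _ _)).trans hσ
    have h2 : σ ∈ Gamma0 ℓ := by
      rw [Gamma0_mem, ZMod.intCast_zmod_eq_zero_iff_dvd] at hσ ⊢
      exact (Int.natCast_dvd_natCast.mpr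
        ((dvd_mul_left ℓ N).trans (dvd_pow_self M two_ne_zero))).trans hσ
    rw [hg, show (2 : ℤ) = 1 + 1 from rfl, ModularForm.mul_slash_SL2, depForm_slash hE h1,
      hEs σ h2, smul_mul_smul_comm]
    congr 1
    simp [psi]
  have hmem : g ∈ S2 M := by
    refine ⟨⟨fun γ hγ => ?_, hdep.form.mdiff.mul hEf.mdiff, fun γ => ?_⟩, fun γ => ?_⟩
    · rw [hsl γ hγ.1]
      have : psi (γ 1 1 : ZMod M) = 1 := by
        rcases hγ.2 with h | h
        · rw [h, map_one]
        · rw [h]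
          refine Subtype.ext ?_
          simp only [psi, MonoidHom.coe_mk, OneHom.coe_mk, map_neg, map_one, MulMemClass.coe_mul,
            coe_charB, hE.neg_one, hχ1, OneMemClass.coe_one]
          norm_num
      rw [this, OneMemClass.coe_one, one_smul]
    · rw [hg, show (2 : ℤ) = 1 + 1 from rfl, ModularForm.mul_slash_SL2]
      exact (hdep.form.bdd γ).mul (hEf.bdd γ)
    · rw [hg, show (2 : ℤ) = 1 + 1 from rfl, ModularForm.mul_slash_SL2]
      have h := ((Asymptotics.isLittleO_one_iff ℝ).mpr (hdep.zero γ)).mul_isBigO (hEf.bdd γ)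
      refine (Asymptotics.isLittleO_one_iff ℝ).mp ?_
      simp only [Pi.one_apply, mul_one] at h
      exact h
  have hqd : MF.IsQFn (depForm (N := N) (⇑f)) := isQFn_depForm (isQFn_eigen f)
  have hqE : MF.IsQFn E := hEf.isQFn (by simp [ModularGroup.coe_T])
  have hser : ∀ n, ((PowerSeries.coeff n (fd * es) : 𝔸) : ℂ) = qCoeff g n := by
    intro n
    rw [qCoeff, hg, qExpansion_mul hqd.analyticAt hqE.analyticAt, hEq,
      show qExpansion 1 (depForm (N := N) (⇑f)) = fd.map (integralClosure ℤ ℂ).val.toRingHom from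
        PowerSeries.ext fun m => by simp [fd, qCoeff], ← map_mul, PowerSeries.coeff_map]
    rfl
  have hℓ0 : φ (ℓ : 𝔸) = 0 := by rw [map_natCast, CharP.cast_eq_zero]
  have he0 : φ (PowerSeries.coeff 0 es) = -1 := by
    have : PowerSeries.coeff 0 es =
        ∑ a ∈ Finset.range ℓ, charB χ (a : ZMod ℓ) * (a : 𝔸) := Subtype.ext (by
      rw [hE0]; simp)
    rw [this, map_sum_teich hχ]
  have hred : ∀ n, φ (PowerSeries.coeff n (fd * es)) = -φ (PowerSeries.coeff n fd) := by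
    have he : es.map φ = PowerSeries.C (-1 : k) := PowerSeries.ext fun n => by
      rw [PowerSeries.coeff_map, PowerSeries.coeff_C]
      split_ifs with h
      · rw [h, he0]
      · obtain ⟨x, hx⟩ := hEn n h
        rw [hx, map_mul, hℓ0, zero_mul]
    intro n
    have := congrArg (PowerSeries.coeff n) (map_mul (PowerSeries.map φ) fd es)
    rw [he, PowerSeries.coeff_mul_C, PowerSeries.coeff_map, PowerSeries.coeff_map] at this
    rw [this, mul_neg_one]
  have hone : PowerSeries.coeff 1 fd = 1 := Subtype.ext (by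
    simp [fd, qCoeff_depForm (isQFn_eigen f), hE.one])
  let S : Seed M φ := ⟨g, hmem, fd * es, hser, psi, hsl, by rw [hred, hone]; simp⟩
  have hrec : ∀ p : ℕ, p.Prime → ¬ p ∣ M → ∀ a e : 𝔸, (a : ℂ) = qCoeff f p →
      (e : ℂ) = ε (p : ZMod N) →
      (p : k) * φ (psi (p : ZMod M)) = φ e ∧ ∀ n, φ (PowerSeries.coeff (n * p) S.ser) +
        (if p ∣ n then (p : k) * φ (psi (p : ZMod M)) * φ (PowerSeries.coeff (n / p) S.ser)
          else 0) = φ a * φ (PowerSeries.coeff n S.ser) := by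
    intro p hp hpM a e ha he
    have hpN : ¬ p ∣ N := fun h => hpM (h.mul_right ℓ)
    have hpl : (p : ZMod ℓ) ≠ 0 := by
      rw [Ne, ZMod.natCast_eq_zero_iff]
      exact fun h => hpM ((hp.dvd_iff_eq hℓ.ne_one |>.mp
        (((Nat.prime_dvd_prime_iff_eq hℓ hp).mp h) ▸ dvd_rfl)) ▸ dvd_mul_left ℓ N)
    have hpsi : (p : k) * φ (psi (p : ZMod M)) = φ e := by
      have h := hχ _ hpl
      rw [map_natCast] at h
      have e1 : psi (p : ZMod M) = e * charB χ (p : ZMod ℓ) := Subtype.ext (by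
        simp [psi, he])
      rw [e1, map_mul]
      linear_combination φ e * h
    refine ⟨hpsi, fun n => ?_⟩
    have hB : PowerSeries.coeff (n * p) fd +
        (if p ∣ n then e * PowerSeries.coeff (n / p) fd else 0) = a * PowerSeries.coeff n fd := by
      refine Subtype.ext ?_
      have hpc : p.Coprime N := hp.coprime_iff_not_dvd.mpr hpN
      have hc : ∀ m, ((PowerSeries.coeff m fd : 𝔸) : ℂ) =
          if m.Coprime N then qCoeff f m else 0 := fun m => by
        simp [fd, qCoeff_depForm (isQFn_eigen f)]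
      rw [Subalgebra.coe_add, apply_ite (Subtype.val : 𝔸 → ℂ)]
      simp only [Subalgebra.coe_mul, Subalgebra.coe_zero, hc, ha, he]
      have h := hE.hecke p hp hpN n
      by_cases hn : n.Coprime N
      · rw [if_pos (hn.mul_left hpc), if_pos hn, mul_comm n p]
        split_ifs with hd hd'
        · rw [if_pos hd] at h
          exact h
        · exact absurd (hn.coprime_dvd_left (Nat.div_dvd_of_dvd hd)) hd'
        · rw [if_neg hd] at h
          simpa using h
      · rw [if_neg (fun hh => hn (Nat.Coprime.coprime_mul_right hh)), if_neg hn]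
        split_ifs with hd hd'
        · refine absurd ?_ hn
          obtain ⟨m, rfl⟩ := hd
          rw [Nat.mul_div_cancel_left _ hp.pos] at hd'
          exact hpc.mul_left hd'
        · simp
        · simp
    have h := congrArg φ hB
    rw [map_add, map_mul, apply_ite φ, map_mul, map_zero] at h
    simp only [S, hred, hpsi]
    split_ifs at h ⊢ <;> linear_combination -h
  have hex : ∀ p : ℕ, p.Prime → ¬ p ∣ M → ∃ a e : 𝔸, (a : ℂ) = qCoeff f p ∧
      (e : ℂ) = ε (p : ZMod N) := fun p hp hpM =>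
    ⟨⟨_, (hA N ε f hE).1 p hp fun h => hpM (h.mul_right ℓ)⟩, charB ε _, rfl, rfl⟩
  obtain ⟨θ, hθ⟩ := S.exists_hom fun p hp hpM => by
    obtain ⟨a, e, ha, he⟩ := hex p hp hpM
    exact ⟨φ a, (hrec p hp hpM a e ha he).2⟩
  refine ⟨θ, fun p hp hpM a e ha he => ⟨hθ _ _ (S.scales_tEnd hp hpM
    (hrec p hp hpM a e ha he).2), ?_⟩⟩
  rw [hθ (sGen M hp hpM) _ (S.scales_sEnd hp hpM), mul_comm]
  exact (hrec p hp hpM a e ha he).1

end Main

end Fermat.Agent.WeightOneGalois
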