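import Fermat.Prelude.Def_ModularForm_HeckeOperator
import Fermat.Agent.WeightOneGalois.Interface

/-!
# The group `GT M` and the representatives of `T_p`

Membership criteria, diamond representatives, and how `Γ₀(M²)` permutes the `p + 1`
representatives; used by all versions of `T_p` in `WeightOneGalois`.
-/

noncomputable section

namespace Fermat.Agent.WeightOneGalois

open CongruenceSubgroup UpperHalfPlane
open scoped MatrixGroups ModularForm

variable {M : ℕ}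

theorem lowerRight_inv_mul {σ : SL(2, ℤ)} (hσ : σ ∈ Gamma0 (M ^ 2)) :
    ((σ⁻¹ : SL(2, ℤ)) 1 1 : ZMod M) * (σ 1 1 : ZMod M) = 1 := by
  rw [← lowerRight_mul (inv_mem hσ), inv_mul_cancel]
  simp

theorem mem_GT_of_lowerRight_one {σ : SL(2, ℤ)} (hσ : σ ∈ Gamma0 (M ^ 2))
    (h : (σ 1 1 : ZMod M) = 1) : σ ∈ GT M :=
  ⟨hσ, Or.inl h⟩

theorem mul_inv_mem_GT {c c' : SL(2, ℤ)} (hc : c ∈ Gamma0 (M ^ 2)) (hc' : c' ∈ Gamma0 (M ^ 2))
    (h : (c 1 1 : ZMod M) = (c' 1 1 : ZMod M)) : c * c'⁻¹ ∈ GT M := by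
  refine mem_GT_of_lowerRight_one (mul_mem hc (inv_mem hc')) ?_
  rw [lowerRight_mul hc, h, mul_comm]
  exact lowerRight_inv_mul hc'

theorem conj_mem_GT {σ : SL(2, ℤ)} (hσ : σ ∈ Gamma0 (M ^ 2)) {γ : SL(2, ℤ)} (hγ : γ ∈ GT M) :
    σ * γ * σ⁻¹ ∈ GT M := by
  refine ⟨mul_mem (mul_mem hσ hγ.1) (inv_mem hσ), ?_⟩
  rw [lowerRight_mul (mul_mem hσ hγ.1), lowerRight_mul hσ, mul_right_comm,
    mul_comm (σ 1 1 : ZMod M), lowerRight_inv_mul hσ, one_mul]
  exact hγ.2

theorem neg_one_mem_GT (M : ℕ) : (-1 : SL(2, ℤ)) ∈ GT M := by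
  refine ⟨by rw [Gamma0_mem]; simp, Or.inr ?_⟩
  simp

theorem Gamma_sq_le_GT (M : ℕ) : Gamma (M ^ 2) ≤ GT M := by
  intro γ hγ
  refine Gamma1_sq_le_GT M ?_
  rw [Gamma1_mem]
  obtain ⟨h1, -, h3, h4⟩ := Gamma_mem.mp hγ
  exact ⟨h1, h4, h3⟩

/-- Diamond representatives exist. -/
theorem exists_isDiaRep (M : ℕ) {p : ℕ} (hp : p.Coprime M) :
    ∃ δ : SL(2, ℤ), IsDiaRep M p δ := by
  have hco : IsCoprime (p : ℤ) ((M : ℤ) ^ 2) :=
    (Nat.isCoprime_iff_coprime.mpr hp).pow_right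
  obtain ⟨u, v, huv⟩ := hco
  refine ⟨⟨!![u, -v; (M : ℤ) ^ 2, (p : ℤ)], by rw [Matrix.det_fin_two_of]; linarith⟩, ?_, ?_⟩
  · refine Gamma0_mem.mpr ?_
    show (((M : ℤ) ^ 2 : ℤ) : ZMod (M ^ 2)) = 0
    rw [ZMod.intCast_zmod_eq_zero_iff_dvd]
    push_cast
    exact dvd_rfl
  · show (((p : ℤ)) : ZMod M) = (p : ZMod M)
    simp

section Hecke

variable {p : ℕ} {δ : SL(2, ℤ)}

/-- The representatives are pairwise inequivalent. -/
theorem heckeRep_rigid (hp : p.Prime) {i j : Option (Fin p)} (c : SL(2, ℤ))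
    (h : heckeRep p δ i = (c : Matrix (Fin 2) (Fin 2) ℤ) * heckeRep p δ j) : i = j := by
  have hp1 : ¬ (p : ℤ) ∣ 1 := fun h => hp.one_lt.ne'
    (by exact_mod_cast (Int.eq_one_of_dvd_one (by positivity) h))
  rcases i with - | b <;> rcases j with - | b'
  · rfl
  · exfalso
    set X : SL(2, ℤ) := δ⁻¹ * c
    have h' : (!![(p : ℤ), 0; 0, 1] : Matrix (Fin 2) (Fin 2) ℤ) =
        (X : Matrix (Fin 2) (Fin 2) ℤ) * !![1, (b' : ℤ); 0, (p : ℤ)] := by
      have := congrArg (((δ⁻¹ : SL(2, ℤ)) : Matrix (Fin 2) (Fin 2) ℤ) * ·) h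
      simp only [heckeRep, ← Matrix.mul_assoc, ← Matrix.SpecialLinearGroup.coe_mul,
        inv_mul_cancel, Matrix.SpecialLinearGroup.coe_one, Matrix.one_mul] at this
      exact this
    have h10 := congrFun (congrFun h' 1) 0
    have h11 := congrFun (congrFun h' 1) 1
    simp [Matrix.mul_apply, Fin.sum_univ_two] at h10 h11
    rw [← h10, zero_mul, zero_add] at h11
    exact hp1 ⟨X 1 1, by linarith⟩
  · exfalso
    have h' : (!![1, (b : ℤ); 0, (p : ℤ)] : Matrix (Fin 2) (Fin 2) ℤ) =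
        ((c * δ : SL(2, ℤ)) : Matrix (Fin 2) (Fin 2) ℤ) * !![(p : ℤ), 0; 0, 1] := by
      simp only [heckeRep, ← Matrix.mul_assoc, ← Matrix.SpecialLinearGroup.coe_mul] at h
      exact h
    have h00 := congrFun (congrFun h' 0) 0
    simp [Matrix.mul_apply, Fin.sum_univ_two] at h00
    exact hp1 ⟨c 0 0 * δ 0 0 + c 0 1 * δ 1 0, by linarith⟩
  · simp only [heckeRep] at h
    have h00 := congrFun (congrFun h 0) 0
    have h01 := congrFun (congrFun h 0) 1
    simp [Matrix.mul_apply, Fin.sum_univ_two] at h00 h01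
    rw [← h00, one_mul] at h01
    have hd : (p : ℤ) ∣ (b : ℤ) - b' := ⟨c 0 1, by linarith⟩
    have := Int.eq_zero_of_abs_lt_dvd hd (by
      rw [abs_lt]; constructor <;> have := b.isLt <;> have := b'.isLt <;> omega)
    exact congrArg some (Fin.ext (by omega))

/-- Moving an element of `Γ₀(M²)` across a representative keeps the lower right entry. -/
theorem exists_step (hp : p.Prime) (hpM : ¬ p ∣ M) (hδ : IsDiaRep M p δ) {σ : SL(2, ℤ)}
    (hσ : σ ∈ Gamma0 (M ^ 2)) (i : Option (Fin p)) :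
    ∃ (j : Option (Fin p)) (c : SL(2, ℤ)), c ∈ Gamma0 (M ^ 2) ∧
      (c 1 1 : ZMod M) = (σ 1 1 : ZMod M) ∧
      heckeRep p δ i * (σ : Matrix (Fin 2) (Fin 2) ℤ) =
        (c : Matrix (Fin 2) (Fin 2) ℤ) * heckeRep p δ j := by
  have : NeZero p := ⟨hp.ne_zero⟩
  have : Fact p.Prime := ⟨hp⟩
  have hdet : σ 0 0 * σ 1 1 - σ 0 1 * σ 1 0 = 1 := by
    have := σ.2; rwa [Matrix.det_fin_two] at this
  have hM := dvd_apply_one_zero hσ
  have hpu : IsUnit (p : ZMod M) := (ZMod.isUnit_iff_coprime p M).mpr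
    ((hp.coprime_iff_not_dvd).mpr hpM)
  have hmem : ∀ {x : SL(2, ℤ)}, ((M : ℤ) ^ 2) ∣ x 1 0 → x ∈ Gamma0 (M ^ 2) := fun {x} hx => by
    rw [Gamma0_mem, ZMod.intCast_zmod_eq_zero_iff_dvd]
    exact_mod_cast hx
  have hsol : ∀ A B : ℤ, ¬ (p : ℤ) ∣ A → ∃ v : Fin p, (p : ℤ) ∣ B - A * v := fun A B hA => by
    have hA' : (A : ZMod p) ≠ 0 := fun h => hA ((ZMod.intCast_zmod_eq_zero_iff_dvd A p).mp h)
    refine ⟨⟨((B : ZMod p) * (A : ZMod p)⁻¹).val, ZMod.val_lt _⟩, ?_⟩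
    rw [← ZMod.intCast_zmod_eq_zero_iff_dvd]
    push_cast
    rw [ZMod.natCast_zmod_val, mul_left_comm, mul_inv_cancel₀ hA', mul_one, sub_self]
  rcases i with - | b
  · by_cases hc : (p : ℤ) ∣ σ 1 0
    · obtain ⟨c', hc'⟩ := hc
      let X : SL(2, ℤ) := ⟨!![σ 0 0, (p : ℤ) * σ 0 1; c', σ 1 1], by
        rw [Matrix.det_fin_two_of]; rw [hc'] at hdet; linarith⟩
      have hX : X ∈ Gamma0 (M ^ 2) := by
        refine hmem ?_
        show ((M : ℤ) ^ 2) ∣ c'
        have hco : IsCoprime ((M : ℤ) ^ 2) (p : ℤ) :=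
          ((Nat.isCoprime_iff_coprime.mpr ((hp.coprime_iff_not_dvd).mpr hpM)).pow_right).symm
        exact hco.dvd_of_dvd_mul_left (hc' ▸ hM)
      refine ⟨none, δ * X * δ⁻¹, mul_mem (mul_mem hδ.1 hX) (inv_mem hδ.1), ?_, ?_⟩
      · rw [lowerRight_mul (mul_mem hδ.1 hX), lowerRight_mul hδ.1, mul_right_comm,
          mul_comm (δ 1 1 : ZMod M), lowerRight_inv_mul hδ.1, one_mul]
        rfl
      · simp only [heckeRep, ← Matrix.mul_assoc, ← Matrix.SpecialLinearGroup.coe_mul,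
          inv_mul_cancel_right]
        simp only [Matrix.SpecialLinearGroup.coe_mul, Matrix.mul_assoc]
        congr 1
        ext u v
        fin_cases u <;> fin_cases v <;> simp [X, Matrix.mul_apply, Fin.sum_univ_two, hc'] <;> ring
    · obtain ⟨v, e, he⟩ := hsol (σ 1 0) (σ 1 1) hc
      let Y : SL(2, ℤ) := ⟨!![(p : ℤ) * σ 0 0, σ 0 1 - σ 0 0 * v; σ 1 0, e], by
        rw [Matrix.det_fin_two_of]; linear_combination hdet - (σ 0 0) * he⟩
      have hY : Y ∈ Gamma0 (M ^ 2) := hmem hM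
      refine ⟨some v, δ * Y, mul_mem hδ.1 hY, ?_, ?_⟩
      · rw [lowerRight_mul hδ.1, hδ.2]
        show (p : ZMod M) * (e : ZMod M) = _
        have h := congrArg (Int.cast : ℤ → ZMod M) he
        push_cast at h
        rw [apply_one_zero_eq_zero hσ, zero_mul, sub_zero] at h
        exact h.symm
      · simp only [heckeRep, Matrix.SpecialLinearGroup.coe_mul, Matrix.mul_assoc]
        congr 1
        ext u w
        fin_cases u <;> fin_cases w <;> simp [Y, Matrix.mul_apply, Fin.sum_univ_two]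
        all_goals linarith
  · by_cases hA : (p : ℤ) ∣ σ 0 0 + (b : ℤ) * σ 1 0
    · obtain ⟨a', ha'⟩ := hA
      let X : SL(2, ℤ) := ⟨!![a', σ 0 1 + (b : ℤ) * σ 1 1; σ 1 0, (p : ℤ) * σ 1 1], by
        rw [Matrix.det_fin_two_of]; linear_combination hdet - (σ 1 1) * ha'⟩
      have hX : X ∈ Gamma0 (M ^ 2) := hmem hM
      refine ⟨none, X * δ⁻¹, mul_mem hX (inv_mem hδ.1), ?_, ?_⟩
      · rw [lowerRight_mul hX]
        show (((p : ℤ) * σ 1 1 : ℤ) : ZMod M) * _ = _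
        have h := lowerRight_inv_mul hδ.1
        rw [hδ.2] at h
        push_cast
        linear_combination (σ 1 1 : ZMod M) * h
      · simp only [heckeRep, ← Matrix.mul_assoc, ← Matrix.SpecialLinearGroup.coe_mul,
          inv_mul_cancel_right]
        ext u w
        fin_cases u <;> fin_cases w <;> simp [X, Matrix.mul_apply, Fin.sum_univ_two]
        all_goals linarith
    · obtain ⟨v, e, he⟩ := hsol (σ 0 0 + (b : ℤ) * σ 1 0) (σ 0 1 + (b : ℤ) * σ 1 1) hA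
      let X : SL(2, ℤ) := ⟨!![σ 0 0 + (b : ℤ) * σ 1 0, e; (p : ℤ) * σ 1 0, σ 1 1 - σ 1 0 * v], by
        rw [Matrix.det_fin_two_of]; linear_combination hdet + (σ 1 0) * he⟩
      have hX : X ∈ Gamma0 (M ^ 2) := hmem (hM.mul_left _)
      refine ⟨some v, X, hX, ?_, ?_⟩
      · show ((σ 1 1 - σ 1 0 * v : ℤ) : ZMod M) = _
        push_cast
        rw [apply_one_zero_eq_zero hσ, zero_mul, sub_zero]
      · simp only [heckeRep]
        ext u w
        fin_cases u <;> fin_cases w <;> simp [X, Matrix.mul_apply, Fin.sum_univ_two]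
        all_goals linarith

/-- The data of moving `σ` across all representatives at once. -/
theorem exists_steps (hp : p.Prime) (hpM : ¬ p ∣ M) (hδ : IsDiaRep M p δ) {σ : SL(2, ℤ)}
    (hσ : σ ∈ Gamma0 (M ^ 2)) :
    ∃ (π : Option (Fin p) → Option (Fin p)) (c : Option (Fin p) → SL(2, ℤ)),
      Function.Bijective π ∧ ∀ i, c i ∈ Gamma0 (M ^ 2) ∧
        (c i 1 1 : ZMod M) = (σ 1 1 : ZMod M) ∧
        heckeRep p δ i * (σ : Matrix (Fin 2) (Fin 2) ℤ) =
          (c i : Matrix (Fin 2) (Fin 2) ℤ) * heckeRep p δ (π i) := by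
  choose π c h1 h2 h3 using exists_step hp hpM hδ hσ
  refine ⟨π, c, Finite.injective_iff_bijective.mp fun i i' h => ?_, fun i => ⟨h1 i, h2 i, h3 i⟩⟩
  refine heckeRep_rigid (δ := δ) hp (c i * (c i')⁻¹) ?_
  have e1 := h3 i
  rw [h] at e1
  have e2 := congrArg ((((c i * (c i')⁻¹ : SL(2, ℤ))) : Matrix (Fin 2) (Fin 2) ℤ) * ·) (h3 i')
  simp only [← Matrix.mul_assoc, ← Matrix.SpecialLinearGroup.coe_mul, inv_mul_cancel_right] at e2
  rw [← e1] at e2
  have e3 := congrArg (· * ((σ⁻¹ : SL(2, ℤ)) : Matrix (Fin 2) (Fin 2) ℤ)) e2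
  simp only [Matrix.mul_assoc, ← Matrix.SpecialLinearGroup.coe_mul, mul_inv_cancel,
    Matrix.SpecialLinearGroup.coe_one, Matrix.mul_one] at e3
  rw [← e3]

/-- `heckeRep` as a real matrix of positive determinant. -/
def repGL (p : ℕ) (δ : SL(2, ℤ)) : Option (Fin p) → GL (Fin 2) ℝ
  | some b => ModularForm.heckeMatrix p b
  | none => (δ : GL (Fin 2) ℝ) * ModularForm.heckeDiagMatrix p

theorem val_repGL (hp : p ≠ 0) (i : Option (Fin p)) :
    (repGL p δ i : Matrix (Fin 2) (Fin 2) ℝ) = (heckeRep p δ i).map (Int.castRingHom ℝ) := by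
  rcases i with - | b
  · rw [repGL, Units.val_mul, ModularForm.val_heckeDiagMatrix hp, heckeRep, Matrix.map_mul]
    congr 1
    ext u v
    fin_cases u <;> fin_cases v <;> simp
  · rw [repGL, ModularForm.val_heckeMatrix hp, heckeRep]
    ext u v
    fin_cases u <;> fin_cases v <;> simp

theorem repGL_det_pos (i : Option (Fin p)) :
    (0 : ℝ) < (repGL p δ i : Matrix (Fin 2) (Fin 2) ℝ).det := by
  rcases i with - | b
  · rw [repGL, Units.val_mul, Matrix.det_mul]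
    refine mul_pos ?_ ?_
    · rw [show ((δ : GL (Fin 2) ℝ) : Matrix (Fin 2) (Fin 2) ℝ).det = 1 from
        (Matrix.SpecialLinearGroup.map (Int.castRingHom ℝ) δ).det_coe]
      exact one_pos
    · rw [← Matrix.GeneralLinearGroup.val_det_apply]; exact ModularForm.det_heckeDiagMatrix_pos p
  · rw [repGL, ← Matrix.GeneralLinearGroup.val_det_apply]; exact ModularForm.det_heckeMatrix_pos p b

theorem repGL_mul (hp : p ≠ 0) {σ c : SL(2, ℤ)} {i j : Option (Fin p)}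
    (h : heckeRep p δ i * (σ : Matrix (Fin 2) (Fin 2) ℤ) =
      (c : Matrix (Fin 2) (Fin 2) ℤ) * heckeRep p δ j) :
    repGL p δ i * (σ : GL (Fin 2) ℝ) = (c : GL (Fin 2) ℝ) * repGL p δ j := by
  refine Units.ext ?_
  rw [Units.val_mul, Units.val_mul, val_repGL hp, val_repGL hp]
  have h' := congrArg (fun A => A.map (Int.castRingHom ℝ)) h
  simp only [Matrix.map_mul] at h'
  exact h'

end Hecke

end Fermat.Agent.WeightOneGalois
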