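import Fermat.Agent.Attach.Eigvec
import Fermat.Agent.Attach.PowTrace
import Fermat.Agent.Attach.Small
import Fermat.Agent.Attach.TwoDim
import Fermat.Agent.Gal.Density
import Fermat.Agent.WeightOneGalois.Period.Form

/-!
# The representations modulo `ℓ`

The `θ`-eigenspace in the `ℓ`-torsion of the Jacobian of `GT (N ℓ)`, tensored with `k`, is nonzero
because it meets the reduction of the dual period lattice. Galois acts on it with
`g + χ(g) g⁻¹` scalar, which gives the representations modulo `ℓ`.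
-/

noncomputable section

open CongruenceSubgroup Matrix ModularFormClass
open scoped MatrixGroups ModularForm

namespace Fermat.Agent.WeightOneGalois

local notation "Γℚ" => (AlgebraicClosure ℚ ≃ₐ[ℚ] AlgebraicClosure ℚ)
local notation "Qbar" => AlgebraicClosure ℚ
local notation "𝔸" => integralClosure ℤ ℂ

/-! ### The lattice in coordinates -/

section Coordinates

variable (M : ℕ) [NeZero M]

/-- The rank of `Lat M`. -/
abbrev latRank : ℕ := Grp.clRank (GT M)

/-- Coordinates on `Lat M`. -/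
def latBas : Lat M ≃ₗ[ℤ] (Fin (latRank M) → ℤ) :=
  (Grp.nonempty_clHoms_equiv_pi (GT M) (neg_one_mem_GT M) ℤ ℤ).some

/-- `iota` as a linear map in coordinates. -/
def iotaLin : (Fin (periodRank M) → ℤ) →ₗ[ℤ] (Fin (latRank M) → ℤ) where
  toFun v := latBas M (iota M v)
  map_add' v w := by
    rw [← map_add]
    exact congrArg _ (Subtype.ext (AddMonoidHom.ext fun x => by
      show _ = ((iota M v : Lat M) : Additive (GT M) →+ ℤ) x +
        ((iota M w : Lat M) : Additive (GT M) →+ ℤ) x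
      simp [iota_apply, add_mul, Finset.sum_add_distrib]))
  map_smul' a v := by
    rw [RingHom.id_apply, ← map_smul]
    exact congrArg _ (Subtype.ext (AddMonoidHom.ext fun x => by
      show _ = a • ((iota M v : Lat M) : Additive (GT M) →+ ℤ) x
      simp [iota_apply, Finset.mul_sum, mul_assoc]))

/-- The retraction as a linear map in coordinates. -/
def rhoLin : (Fin (latRank M) → ℤ) →ₗ[ℤ] (Fin (periodRank M) → ℤ) :=
  (rho M).toIntLinearMap ∘ₗ (latBas M).symm.toLinearMap

theorem rhoLin_comp_iotaLin : rhoLin M ∘ₗ iotaLin M = LinearMap.id := by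
  refine LinearMap.ext fun v => ?_
  show rho M ((latBas M).symm (latBas M (iota M v))) = v
  rw [LinearEquiv.symm_apply_apply, rho_iota]

/-- An endomorphism of `Lat M` in coordinates. -/
def coordEnd (T : Module.End ℤ (Lat M)) : (Fin (latRank M) → ℤ) →ₗ[ℤ] (Fin (latRank M) → ℤ) :=
  (latBas M).toLinearMap ∘ₗ T ∘ₗ (latBas M).symm.toLinearMap

theorem coordEnd_comp_iotaLin {T : Module.End ℤ (Lat M)} {t : heckeAlg M}
    (h : ∀ v, T (iota M v) = iota M ((dualMat M t).mulVec v)) :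
    coordEnd M T ∘ₗ iotaLin M = iotaLin M ∘ₗ Matrix.toLin' (dualMat M t) := by
  refine LinearMap.ext fun v => ?_
  show latBas M (T ((latBas M).symm (latBas M (iota M v)))) = latBas M (iota M _)
  rw [LinearEquiv.symm_apply_apply, h]
  rfl

end Coordinates

/-! ### Galois on the reduction -/

section Galois

variable {M : ℕ} [NeZero M] {ℓ : ℕ} [Fact ℓ.Prime] (Y : TorsionY M ℓ)

/-- Reduction of `Lat M` modulo `ℓ`, in coordinates. -/
def latRed : Lat M →+ (Fin (latRank M) → ZMod ℓ) :=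
  ((Int.castAddHom (ZMod ℓ)).compLeft (Fin (latRank M))).comp (latBas M).toLinearMap.toAddMonoidHom

theorem latRed_apply (v : Lat M) (i : Fin (latRank M)) :
    latRed (ℓ := ℓ) v i = ((latBas M v i : ℤ) : ZMod ℓ) := rfl

theorem latRed_coordEnd (T : Module.End ℤ (Lat M)) (v : Lat M) :
    latRed (ℓ := ℓ) (T v) =
      ((LinearMap.toMatrix' (coordEnd M T)).map (Int.castRingHom (ZMod ℓ))).mulVec (latRed v) := by
  funext i
  have h : coordEnd M T (latBas M v) = latBas M (T v) := by simp [coordEnd]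
  rw [latRed_apply, ← h, ← LinearMap.toMatrix'_mulVec]
  exact RingHom.map_mulVec (Int.castRingHom (ZMod ℓ)) _ _ i

include Y in
theorem latRed_eq_iff (v w : Lat M) : latRed (ℓ := ℓ) v = latRed w ↔ Y.proj v = Y.proj w := by
  rw [← sub_eq_zero, ← map_sub, ← sub_eq_zero (a := Y.proj v), ← map_sub, Y.ker_eq]
  constructor
  · intro h
    have h' : ∀ i, (ℓ : ℤ) ∣ latBas M (v - w) i := fun i =>
      (ZMod.intCast_zmod_eq_zero_iff_dvd _ ℓ).mp (congrFun h i)
    choose u hu using h'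
    refine ⟨(latBas M).symm u, (latBas M).injective ?_⟩
    rw [map_nsmul, LinearEquiv.apply_symm_apply]
    funext i
    rw [hu i, Pi.smul_apply, nsmul_eq_mul]
  · rintro ⟨u, hu⟩
    rw [hu, map_nsmul]
    funext i
    rw [Pi.smul_apply, nsmul_eq_mul, ZMod.natCast_self, zero_mul]
    rfl

/-- A lift to `Lat M` of reduced coordinates. -/
def latLift (x : Fin (latRank M) → ZMod ℓ) : Lat M := (latBas M).symm fun i => ((x i).val : ℤ)

theorem latRed_latLift (x : Fin (latRank M) → ZMod ℓ) : latRed (latLift x) = x := by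
  funext i
  rw [latRed_apply, latLift, LinearEquiv.apply_symm_apply, Int.cast_natCast, ZMod.natCast_zmod_val]

omit [Fact (Nat.Prime ℓ)] in
theorem exists_proj_eq (σ : Γℚ) (v : Lat M) : ∃ w : Lat M, σ • Y.proj v = Y.proj w := by
  have h : ℓ • (σ • Y.proj v) = 0 := by
    rw [smul_comm, (Y.range_eq _).mpr ⟨v, rfl⟩]
    exact smul_zero (A := JY M) σ
  obtain ⟨w, hw⟩ := (Y.range_eq _).mp h
  exact ⟨w, hw.symm⟩

/-- Galois on reduced coordinates. -/
def galFun (σ : Γℚ) (x : Fin (latRank M) → ZMod ℓ) : Fin (latRank M) → ZMod ℓ :=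
  latRed (exists_proj_eq Y σ (latLift x)).choose

theorem galFun_latRed {σ : Γℚ} {v w : Lat M} (h : σ • Y.proj v = Y.proj w) :
    galFun Y σ (latRed v) = latRed w := by
  rw [galFun, latRed_eq_iff Y, ← (exists_proj_eq Y σ _).choose_spec,
    (latRed_eq_iff Y _ _).mp (latRed_latLift (latRed v)), h]

/-- Galois on reduced coordinates, linearly. -/
def galLin (σ : Γℚ) : Module.End (ZMod ℓ) (Fin (latRank M) → ZMod ℓ) :=
  AddMonoidHom.toZModLinearMap ℓ (AddMonoidHom.mk' (galFun Y σ) fun x y => by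
    obtain ⟨a, ha⟩ := exists_proj_eq Y σ (latLift x)
    obtain ⟨b, hb⟩ := exists_proj_eq Y σ (latLift y)
    have hab : σ • Y.proj (latLift x + latLift y) = Y.proj (a + b) := by
      rw [map_add, map_add, smul_add, ha, hb]
    conv_lhs => rw [← latRed_latLift x, ← latRed_latLift y, ← map_add, galFun_latRed Y hab, map_add]
    rw [← galFun_latRed Y ha, ← galFun_latRed Y hb, latRed_latLift, latRed_latLift])

/-- Galois on the reduction, as matrices. -/
def galRep : Γℚ →* Matrix (Fin (latRank M)) (Fin (latRank M)) (ZMod ℓ) where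
  toFun σ := LinearMap.toMatrixAlgEquiv' (galLin Y σ)
  map_one' := by
    rw [← map_one (LinearMap.toMatrixAlgEquiv' (R := ZMod ℓ) (n := Fin (latRank M)))]
    refine congrArg _ (LinearMap.ext fun x => ?_)
    show galFun Y 1 x = x
    conv_lhs => rw [← latRed_latLift x, galFun_latRed Y (one_smul _ _), latRed_latLift]
  map_mul' σ τ := by
    rw [← map_mul]
    refine congrArg _ (LinearMap.ext fun x => ?_)
    obtain ⟨a, ha⟩ := exists_proj_eq Y τ (latLift x)
    obtain ⟨b, hb⟩ := exists_proj_eq Y σ a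
    show galFun Y (σ * τ) x = galFun Y σ (galFun Y τ x)
    rw [← latRed_latLift x, galFun_latRed Y ha, galFun_latRed Y hb,
      galFun_latRed Y (by rw [mul_smul, ha, hb])]

theorem galRep_mulVec {σ : Γℚ} {v w : Lat M} (h : σ • Y.proj v = Y.proj w) :
    (galRep Y σ).mulVec (latRed v) = latRed w := by
  rw [← galFun_latRed Y h]
  exact LinearMap.toMatrix'_mulVec (galLin Y σ) _

theorem galRep_eq_one {σ : Γℚ} (h : ∀ v : Lat M, σ • Y.proj v = Y.proj v) : galRep Y σ = 1 := by
  refine Matrix.toLin'.injective (LinearMap.ext fun x => ?_)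
  rw [Matrix.toLin'_apply, Matrix.toLin'_one, LinearMap.id_apply, ← latRed_latLift x,
    galRep_mulVec Y (h _)]

theorem galRep_finite_level :
    ∃ L : IntermediateField ℚ Qbar, FiniteDimensional ℚ L ∧
      ∀ σ : Γℚ, (∀ a ∈ L, σ a = a) → galRep Y σ = 1 := by
  let b : Fin (latRank M) → Lat M := fun i => latLift (Pi.single i (1 : ZMod ℓ))
  choose L hL hfix using fun i => Y.finite_level (b i)
  have : ∀ i, FiniteDimensional ℚ (L i) := hL
  refine ⟨⨆ i, L i, inferInstance, fun σ hσ => ?_⟩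
  refine Matrix.ext fun i j => ?_
  have h := galRep_mulVec Y (hfix j σ fun a ha => hσ a ((le_iSup L j : L j ≤ ⨆ i, L i) ha))
  rw [latRed_latLift, Matrix.mulVec_single_one] at h
  have := congrFun h i
  simpa [Matrix.one_apply, Pi.single_apply] using this

theorem galRep_commute {σ : Γℚ} (T : Module.End ℤ (Lat M))
    (h : ∀ v w : Lat M, σ • Y.proj v = Y.proj w → σ • Y.proj (T v) = Y.proj (T w)) :
    Commute (galRep Y σ) ((LinearMap.toMatrix' (coordEnd M T)).map (Int.castRingHom (ZMod ℓ))) := by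
  refine Matrix.toLin'.injective (LinearMap.ext fun x => ?_)
  obtain ⟨w, hw⟩ := exists_proj_eq Y σ (latLift x)
  rw [Matrix.toLin'_apply, Matrix.toLin'_apply, ← Matrix.mulVec_mulVec, ← Matrix.mulVec_mulVec,
    ← latRed_latLift x, ← latRed_coordEnd, galRep_mulVec Y hw, galRep_mulVec Y (h _ _ hw),
    ← latRed_coordEnd]

theorem galRep_frobenius {σ : Γℚ} (T S : Module.End ℤ (Lat M)) (p : ℕ)
    (h : ∀ v : Lat M, σ • σ • Y.proj v - σ • Y.proj (T v) + p • Y.proj (S v) = 0) :
    galRep Y σ * galRep Y σ -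
      galRep Y σ * (LinearMap.toMatrix' (coordEnd M T)).map (Int.castRingHom (ZMod ℓ)) +
      (p : ZMod ℓ) • (LinearMap.toMatrix' (coordEnd M S)).map (Int.castRingHom (ZMod ℓ)) = 0 := by
  refine Matrix.toLin'.injective (LinearMap.ext fun x => ?_)
  obtain ⟨w, hw⟩ := exists_proj_eq Y σ (latLift x)
  obtain ⟨w₂, hw₂⟩ := exists_proj_eq Y σ w
  obtain ⟨u, hu⟩ := exists_proj_eq Y σ (T (latLift x))
  have h0 := h (latLift x)
  rw [hw, hw₂, hu, ← map_nsmul, ← map_sub, ← map_add, ← map_zero Y.proj, ← latRed_eq_iff Y,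
    map_add, map_sub, map_nsmul, map_zero] at h0
  rw [Matrix.toLin'_apply, map_zero, LinearMap.zero_apply, Matrix.add_mulVec, Matrix.sub_mulVec,
    Matrix.smul_mulVec, ← Matrix.mulVec_mulVec, ← Matrix.mulVec_mulVec, ← latRed_latLift x,
    ← latRed_coordEnd, ← latRed_coordEnd, galRep_mulVec Y hw, galRep_mulVec Y hw₂,
    galRep_mulVec Y hu, Nat.cast_smul_eq_nsmul]
  exact h0

end Galois

/-! ### The determinant -/

section Det

variable {N : ℕ} [NeZero N]

/-- The character of `Γℚ` with values in `k` attached to `ε`. -/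
theorem exists_detChar (ε : DirichletCharacter ℂ N) {k : Type} [Field k] (φ : 𝔸 →+* k) :
    ∃ χ : Γℚ →* k,
      (∃ L : IntermediateField ℚ Qbar, FiniteDimensional ℚ L ∧
        ∀ σ : Γℚ, (∀ a ∈ L, σ a = a) → χ σ = 1) ∧
      ∀ p : ℕ, p.Prime → ¬ p ∣ N → ∀ A : ValuationSubring Qbar, A.LiesOverPrime p →
        (∀ σ ∈ A.inertiaSubgroupIn ℚ, χ σ = 1) ∧
        ∀ σ : Γℚ, A.IsFrobeniusAt σ p → χ σ = φ (charB ε (p : ZMod N)) := by
  have : NeZero ((N : ℕ) : Qbar) := ⟨Nat.cast_ne_zero.mpr (NeZero.ne N)⟩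
  obtain ⟨z, hz⟩ := HasEnoughRootsOfUnity.exists_primitiveRoot Qbar N
  let χ : Γℚ →* k :=
    { toFun := fun g => φ (charB ε (hz.autToPow ℚ g : ZMod N))
      map_one' := by
        rw [map_one, Units.val_one, show charB ε (1 : ZMod N) = 1 from Subtype.ext (by simp),
          map_one]
      map_mul' := fun g h => by
        rw [map_mul, Units.val_mul, ← map_mul]
        exact congrArg φ (Subtype.ext (by simp)) }
  have key : ∀ (g : Γℚ) (c : ℕ), c.Coprime N → g z = z ^ c → χ g = φ (charB ε (c : ZMod N)) := by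
    intro g c _ hg
    refine congrArg (fun a => φ (charB ε a)) ?_
    have h := hz.autToPow_spec ℚ g
    rw [hg] at h
    have h2 : ((hz.autToPow ℚ g : ZMod N)).val ≡ c [MOD N] := by
      have h3 : (hz.isUnit (NeZero.ne N)).unit ^ ((hz.autToPow ℚ g : ZMod N)).val =
          (hz.isUnit (NeZero.ne N)).unit ^ c := Units.ext (by simpa using h)
      have h4 := pow_eq_pow_iff_modEq.mp h3
      rwa [← (hz.isUnit_unit (NeZero.ne N)).eq_orderOf] at h4
    rw [← ZMod.natCast_zmod_val (hz.autToPow ℚ g : ZMod N), ZMod.natCast_eq_natCast_iff]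
    exact h2
  have hone : φ (charB ε ((1 : ℕ) : ZMod N)) = 1 := by
    rw [show charB ε ((1 : ℕ) : ZMod N) = 1 from Subtype.ext (by simp), map_one]
  refine ⟨χ, ⟨IntermediateField.adjoin ℚ {z}, IntermediateField.adjoin.finiteDimensional
    ((hz.isIntegral (Nat.pos_of_neZero _)).tower_top), fun σ hσ => ?_⟩,
    fun p hp hpN A hA => ⟨fun σ hσ => ?_, fun σ hσ => ?_⟩⟩
  · rw [key σ 1 N.coprime_one_left (by
      rw [pow_one]; exact hσ z (IntermediateField.subset_adjoin ℚ _ rfl)), hone]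
  · rw [key σ 1 N.coprime_one_left (by
      rw [pow_one]; exact Gal.inertia_rootOfUnity hp hA hσ hpN hz.pow_eq_one), hone]
  · exact key σ p (hp.coprime_iff_not_dvd.mpr hpN)
      (Gal.isFrobeniusAt_rootOfUnity hp hA hσ hpN hz.pow_eq_one)

end Det

/-! ### The representations -/

/-- A prime factor `≡ 11 (mod 12)` excludes elliptic elements. -/
theorem noEll_of_dvd {ℓ M : ℕ} [Fact ℓ.Prime] (h12 : ℓ % 12 = 11) (hd : ℓ ∣ M) : NoEll M := by
  intro γ hγ
  by_contra hlt
  push Not at hlt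
  have hc : ((γ 1 0 : ℤ) : ZMod ℓ) = 0 := by
    rw [Gamma0_mem, ZMod.intCast_zmod_eq_zero_iff_dvd] at hγ
    rw [ZMod.intCast_zmod_eq_zero_iff_dvd]
    exact (Int.natCast_dvd_natCast.mpr hd).trans hγ
  have hdet := congrArg (Int.cast : ℤ → ZMod ℓ) γ.2
  rw [Matrix.det_fin_two] at hdet
  push_cast at hdet
  rw [hc, mul_zero, sub_zero] at hdet
  set t := Grp.tr γ with ht
  have htr : ((γ 0 0 : ℤ) : ZMod ℓ) + (γ 1 1 : ℤ) = (t : ZMod ℓ) := by
    rw [ht, Grp.tr_eq]; push_cast; rfl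
  set x := ((γ 0 0 : ℤ) : ZMod ℓ) with hx
  have hroot : x * x - (t : ZMod ℓ) * x + 1 = 0 := by linear_combination (-1) * hdet + x * htr
  have h4 : ℓ % 4 = 3 := by omega
  have h3 : ℓ % 3 = 2 := by omega
  have hm1 : ¬ IsSquare (-1 : ZMod ℓ) := fun h => by
    have := ZMod.exists_sq_eq_neg_one_iff.1 h; omega
  have hm3 : ∀ w : ZMod ℓ, w * w + w + 1 ≠ 0 := fun w hw => by
    have h1 : w ≠ 1 := fun h => by
      subst h
      have : ((3 : ℕ) : ZMod ℓ) = 0 := by push_cast; linear_combination hw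
      rw [ZMod.natCast_eq_zero_iff] at this
      have := Nat.le_of_dvd three_pos this
      omega
    have hw3 : w ^ 3 = 1 := by linear_combination (w - 1) * hw
    have hw0 : w ≠ 0 := fun h => by simp [h] at hw
    have hcop : Nat.Coprime 3 (ℓ - 1) := (Nat.prime_three.coprime_iff_not_dvd).2 (by omega)
    have h := pow_gcd_eq_one.2 ⟨hw3, ZMod.pow_card_sub_one_eq_one hw0⟩
    rw [hcop.gcd_eq_one, pow_one] at h
    exact h1 h
  obtain h | h | h : t = -1 ∨ t = 0 ∨ t = 1 := by rw [abs_lt] at hlt; omega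
  all_goals rw [h] at hroot; push_cast at hroot
  · exact hm3 x (by linear_combination hroot)
  · exact hm1 ⟨x, by linear_combination -hroot⟩
  · exact hm3 (-x) (by linear_combination hroot)

/-- By Chebotarev, if `ρ σ + χ σ • ρ σ⁻¹` is scalar at the Frobenius elements outside a finite set
of primes, and `ρ`, `χ` have finite level, it is scalar everywhere. -/
theorem exists_scalar_of_frobenius {k : Type} [Field k] {V : Type} [AddCommGroup V] [Module k V]
    (ρ : Γℚ →* Module.End k V) (χ : Γℚ →* k) {L₁ L₂ : IntermediateField ℚ Qbar}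
    [FiniteDimensional ℚ L₁] [FiniteDimensional ℚ L₂]
    (hρ : ∀ τ : Γℚ, (∀ x ∈ L₁, τ x = x) → ρ τ = 1) (hχ : ∀ τ : Γℚ, (∀ x ∈ L₂, τ x = x) → χ τ = 1)
    (S : Finset ℕ)
    (hfrob : ∀ p : ℕ, p.Prime → p ∉ S → ∀ A : ValuationSubring Qbar, A.LiesOverPrime p →
      ∀ σ : Γℚ, A.IsFrobeniusAt σ p → ∃ t : k, ρ σ + χ σ • ρ σ⁻¹ = t • 1)
    (g : Γℚ) : ∃ c : k, ρ g + χ g • ρ g⁻¹ = c • (1 : Module.End k V) := by
  have hinv : ∀ g, ρ g * ρ g⁻¹ = 1 := fun g => by rw [← map_mul, mul_inv_cancel, map_one]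
  have hinv' : ∀ g, ρ g⁻¹ * ρ g = 1 := fun g => by rw [← map_mul, inv_mul_cancel, map_one]
  obtain ⟨p, hp, hpS, A, hAp, σ, hσ, a, -, hga, -⟩ :=
    Gal.exists_frobenius_generates (L₁ ⊔ L₂) g S
  obtain ⟨t, ht⟩ := hfrob p hp hpS A hAp σ hσ
  have key : ∀ {X : Type} [MulOneClass X] (F : Γℚ →* X) (L : IntermediateField ℚ Qbar),
      L ≤ L₁ ⊔ L₂ → (∀ τ : Γℚ, (∀ x ∈ L, τ x = x) → F τ = 1) → F g = F (σ ^ a) := by
    intro X _ F L hle hf
    have hfix : ∀ x ∈ L, ((σ ^ a)⁻¹ * g) x = x := fun x hx => by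
      show (σ ^ a)⁻¹ (g x) = x
      rw [hga x (hle hx)]
      exact (σ ^ a).symm_apply_apply x
    rw [← mul_inv_cancel_left (σ ^ a) g, map_mul, hf _ hfix, mul_one]
  have hρg : ρ g = ρ (σ ^ a) := key ρ L₁ le_sup_left hρ
  have hχg : χ g = χ (σ ^ a) := key χ L₂ le_sup_right hχ
  have hρg' : ρ g⁻¹ = ρ σ⁻¹ ^ a := by
    refine left_inv_eq_right_inv (hinv' g) ?_
    rw [hρg, ← map_pow, ← map_mul, inv_pow, mul_inv_cancel, map_one]
  refine ⟨Attach.powTrace t (χ σ) a, ?_⟩
  have h := Attach.pow_add_pow_eq_powTrace (ρ σ) (ρ σ⁻¹)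
    (algebraMap k _ t) (algebraMap k _ (χ σ)) (hinv σ) (hinv' σ)
    (Algebra.commute_algebraMap_left _ _) (Algebra.commute_algebraMap_left _ _)
    (by rw [← Algebra.smul_def, ht, Algebra.algebraMap_eq_smul_one]) a
  rw [← Attach.map_powTrace, ← map_pow (algebraMap k (Module.End k V)), ← Algebra.smul_def,
    Algebra.algebraMap_eq_smul_one (Attach.powTrace _ _ _)] at h
  rw [hρg, hρg', hχg, map_pow, map_pow]
  exact h

/-- A two-dimensional representation with determinant `χ` and trace `c`, trivial where `ρ` and `χ`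
are, when `ρ g + χ g • ρ g⁻¹` is the scalar `c g`. -/
theorem exists_twoDim_of_scalar {k : Type} [Field k] [IsAlgClosed k] {V : Type} [AddCommGroup V]
    [Module k V] [FiniteDimensional k V] [Nontrivial V] (ρ : Γℚ →* Module.End k V) (χ : Γℚ →* k)
    (c : Γℚ → k) (hc : ∀ g, ρ g + χ g • ρ g⁻¹ = c g • (1 : Module.End k V)) :
    ∃ τ : Γℚ →* Matrix (Fin 2) (Fin 2) k, (∀ g, (τ g).det = χ g) ∧ (∀ g, (τ g).trace = c g) ∧
      ∀ g, ρ g = 1 → χ g = 1 → τ g = 1 := by
  obtain ⟨W, hW, hd⟩ := Attach.exists_small_invariant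
    (Attach.smallQuadraticDivision_of_isAlgClosed k) ρ χ c hc
  have : Module.Free k W := Module.Free.of_divisionRing k W
  let bW := Module.finBasis k W
  let σW : Γℚ →* Matrix (Fin (Module.finrank k W)) (Fin (Module.finrank k W)) k :=
    { toFun := fun g => LinearMap.toMatrixAlgEquiv bW ((ρ g).restrict (hW g))
      map_one' := by
        rw [← map_one (LinearMap.toMatrixAlgEquiv bW)]
        exact congrArg _ (LinearMap.ext fun w => Subtype.ext (by simp))
      map_mul' := fun g h => by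
        rw [← map_mul (LinearMap.toMatrixAlgEquiv bW)]
        exact congrArg _ (LinearMap.ext fun w => Subtype.ext (by simp)) }
  have hσgood : Attach.IsGoodMat σW χ c := fun g => by
    show LinearMap.toMatrixAlgEquiv bW _ + χ g • LinearMap.toMatrixAlgEquiv bW _ = _
    rw [← map_smul, ← map_add, ← map_one (LinearMap.toMatrixAlgEquiv bW), ← map_smul]
    exact congrArg _ (LinearMap.ext fun w => Subtype.ext (LinearMap.congr_fun (hc g) (w : V)))
  obtain ⟨τ, hdet, htr, hnear⟩ := Attach.exists_twoDim_of_good hd σW χ c hσgood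
  refine ⟨τ, hdet, htr, fun g h1 h2 => ?_⟩
  have hσ : σW g = 1 := by
    show LinearMap.toMatrixAlgEquiv bW _ = 1
    rw [← map_one (LinearMap.toMatrixAlgEquiv bW)]
    exact congrArg _ (LinearMap.ext fun w => Subtype.ext (LinearMap.congr_fun h1 (w : V)))
  have h := hnear ⊥ g (fun i j => by rw [hσ, sub_self]; exact Submodule.zero_mem _)
    (by rw [h2, sub_self]; exact Submodule.zero_mem _)
  ext i j
  exact sub_eq_zero.mp ((Submodule.mem_bot k).mp (h i j))

/-- The representations modulo `ℓ` exist. -/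
theorem modLReps_of (hT : TorsionInputs) (hEis : EisOne) (hA : WeightOneArith) : ModLReps := by
  intro N _ ε f hE
  refine ⟨5, fun ℓ hℓ hB h12 k _ _ _ φ => ?_⟩
  have : Fact ℓ.Prime := ⟨hℓ⟩
  set M := N * ℓ with hM
  have hM4 : 4 ≤ M := le_trans (by omega) (Nat.le_mul_of_pos_left ℓ (NeZero.pos N))
  obtain ⟨Y⟩ := hT M ℓ hM4 (noEll_of_dvd h12 (dvd_mul_left ℓ N)) hℓ
  obtain ⟨θ, hθ⟩ := exists_theta hEis hA hE hB.le φ
  obtain ⟨χ, ⟨L₂, hL₂, hχL⟩, hχ⟩ := exists_detChar ε φ
  obtain ⟨v, hv0, hv⟩ := Attach.exists_eigvec (dualMat M) (dualMat_injective M) θ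
  let ιk : ZMod ℓ →+* k := ZMod.castHom dvd_rfl k
  have hιk : ιk.comp (Int.castRingHom (ZMod ℓ)) = Int.castRingHom k := RingHom.ext_int _ _
  choose T S hTs hSs hcomm hfrob using fun (p : ℕ) (hp : p.Prime) (hpM : ¬ p ∣ M) =>
    Y.hecke p hp hpM (dia M hp hpM) (dia_spec M hp hpM)
  let mk : Module.End ℤ (Lat M) → Matrix (Fin (latRank M)) (Fin (latRank M)) k := fun E =>
    (LinearMap.toMatrix' (coordEnd M E)).map (Int.castRingHom k)
  have hmk : ∀ E, mk E = ιk.mapMatrix ((LinearMap.toMatrix' (coordEnd M E)).map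
      (Int.castRingHom (ZMod ℓ))) := fun E => by
    ext i j
    exact (RingHom.congr_fun hιk _).symm
  -- the eigenvector in the torsion
  set B : Matrix (Fin (latRank M)) (Fin (periodRank M)) k :=
    (LinearMap.toMatrix' (iotaLin M)).map (Int.castRingHom k) with hBdef
  set w₀ : Fin (latRank M) → k := B.mulVec v with hw₀def
  have hw₀ : w₀ ≠ 0 := by
    intro h
    have e : (LinearMap.toMatrix' (rhoLin M)).map (Int.castRingHom k) * B = 1 := by
      rw [hBdef, ← Matrix.map_mul, ← LinearMap.toMatrix'_comp, rhoLin_comp_iotaLin,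
        LinearMap.toMatrix'_id, Matrix.map_one _ (map_zero _) (map_one _)]
    apply hv0
    rw [← Matrix.one_mulVec v, ← e, ← Matrix.mulVec_mulVec, ← hw₀def, h, Matrix.mulVec_zero]
  have heig : ∀ (E : Module.End ℤ (Lat M)) (t : heckeAlg M),
      (∀ u, E (iota M u) = iota M ((dualMat M t).mulVec u)) → (mk E).mulVec w₀ = θ t • w₀ := by
    intro E t h
    have e : mk E * B = B * (dualMat M t).map (Int.castRingHom k) := by
      rw [hBdef, ← Matrix.map_mul, ← Matrix.map_mul, ← LinearMap.toMatrix'_comp,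
        coordEnd_comp_iotaLin M h, LinearMap.toMatrix'_comp, LinearMap.toMatrix'_toLin']
    rw [hw₀def, Matrix.mulVec_mulVec, e, ← Matrix.mulVec_mulVec, hv, Matrix.mulVec_smul]
  let V : Submodule k (Fin (latRank M) → k) :=
    { carrier := {w | ∀ (p : ℕ) (hp : p.Prime) (hpM : ¬ p ∣ M),
        (mk (T p hp hpM)).mulVec w = θ (tGen M hp hpM) • w ∧
        (mk (S p hp hpM)).mulVec w = θ (sGen M hp hpM) • w}
      add_mem' := fun {a b} ha hb p hp hpM => ⟨by
        rw [Matrix.mulVec_add, (ha p hp hpM).1, (hb p hp hpM).1, smul_add], by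
        rw [Matrix.mulVec_add, (ha p hp hpM).2, (hb p hp hpM).2, smul_add]⟩
      zero_mem' := fun p hp hpM => ⟨by rw [Matrix.mulVec_zero, smul_zero], by
        rw [Matrix.mulVec_zero, smul_zero]⟩
      smul_mem' := fun c {a} ha p hp hpM => ⟨by
        rw [Matrix.mulVec_smul, (ha p hp hpM).1, smul_comm], by
        rw [Matrix.mulVec_smul, (ha p hp hpM).2, smul_comm]⟩ }
  have hvV : w₀ ∈ V := fun p hp hpM => ⟨heig _ _ (intertwine_tGen M hp hpM (hTs p hp hpM)),
    heig _ _ (intertwine_sGen M hp hpM (hSs p hp hpM))⟩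
  have : Nontrivial V := ⟨⟨w₀, hvV⟩, 0, fun h => hw₀ (congrArg Subtype.val h)⟩
  let R : Γℚ →* Matrix (Fin (latRank M)) (Fin (latRank M)) k :=
    ιk.mapMatrix.toMonoidHom.comp (galRep Y)
  have hstab : ∀ g : Γℚ, ∀ w ∈ V, (R g).mulVec w ∈ V := by
    intro g w hw p hp hpM
    have h1 : Commute (R g) (mk (T p hp hpM)) := by
      rw [hmk]; exact (galRep_commute Y _ fun a b h => (hcomm p hp hpM g a b h).1).map ιk.mapMatrix
    have h2 : Commute (R g) (mk (S p hp hpM)) := by
      rw [hmk]; exact (galRep_commute Y _ fun a b h => (hcomm p hp hpM g a b h).2).map ιk.mapMatrix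
    exact ⟨by rw [Matrix.mulVec_mulVec, ← h1.eq, ← Matrix.mulVec_mulVec, (hw p hp hpM).1,
        Matrix.mulVec_smul],
      by rw [Matrix.mulVec_mulVec, ← h2.eq, ← Matrix.mulVec_mulVec, (hw p hp hpM).2,
        Matrix.mulVec_smul]⟩
  let ρ : Γℚ →* Module.End k V :=
    { toFun := fun g => (Matrix.toLinAlgEquiv' (R g)).restrict (hstab g)
      map_one' := LinearMap.ext fun w => Subtype.ext (by simp)
      map_mul' := fun g h => LinearMap.ext fun w => Subtype.ext (by
        show (R (g * h)).mulVec (w : Fin (latRank M) → k) = (R g).mulVec ((R h).mulVec w)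
        rw [map_mul, Matrix.mulVec_mulVec]) }
  have hinv : ∀ g, ρ g * ρ g⁻¹ = 1 := fun g => by rw [← map_mul, mul_inv_cancel, map_one]
  have hint : ∀ p : ℕ, p.Prime → ¬ p ∣ M → IsIntegral ℤ (qCoeff f p) := fun p hp hpM =>
    (hA N ε f hE).1 p hp fun h => hpM (h.mul_right ℓ)
  have hgoodF : ∀ (p : ℕ) (hp : p.Prime) (hpM : ¬ p ∣ M) (A : ValuationSubring Qbar),
      A.LiesOverPrime p → ∀ σ : Γℚ, A.IsFrobeniusAt σ p →
        ρ σ + χ σ • ρ σ⁻¹ = θ (tGen M hp hpM) • (1 : Module.End k V) := by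
    intro p hp hpM A hAp σ hσ
    have hpN : ¬ p ∣ N := fun h => hpM (h.mul_right ℓ)
    have hpl : ¬ p ∣ ℓ := fun h => hpM (h.mul_left N)
    have hq := congrArg ιk.mapMatrix
      (galRep_frobenius Y _ _ p (hfrob p hp hpM hpl A hAp σ hσ))
    have hs : (p : k) * θ (sGen M hp hpM) = χ σ := by
      rw [(hχ p hp hpN A hAp).2 σ hσ, mul_comm,
        (hθ p hp hpM ⟨_, hint p hp hpM⟩ (charB ε _) rfl rfl).2]
    have hsq : ρ σ * ρ σ - θ (tGen M hp hpM) • ρ σ + χ σ • (1 : Module.End k V) = 0 := by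
      refine LinearMap.ext fun w => Subtype.ext ?_
      show (R σ).mulVec ((R σ).mulVec w) - θ (tGen M hp hpM) • (R σ).mulVec w +
        χ σ • (w : Fin (latRank M) → k) = 0
      have h' : (R σ * R σ - R σ * mk (T p hp hpM) + (p : k) • mk (S p hp hpM)).mulVec w = 0 := by
        have e : R σ * R σ - R σ * mk (T p hp hpM) + (p : k) • mk (S p hp hpM) = 0 := by
          rw [hmk, hmk]
          have hps : ∀ X : Matrix (Fin (latRank M)) (Fin (latRank M)) (ZMod ℓ),
              ιk.mapMatrix ((p : ZMod ℓ) • X) = (p : k) • ιk.mapMatrix X := fun X => by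
            ext i j
            simp
          rw [map_add, map_sub, map_mul, map_mul, map_zero, hps] at hq
          exact hq
        rw [e, Matrix.zero_mulVec]
      rw [Matrix.add_mulVec, Matrix.sub_mulVec, Matrix.smul_mulVec, ← Matrix.mulVec_mulVec,
        ← Matrix.mulVec_mulVec, (w.2 p hp hpM).1, (w.2 p hp hpM).2, Matrix.mulVec_smul, smul_smul,
        hs] at h'
      exact h'
    refine LinearMap.ext fun w => ?_
    have h := LinearMap.congr_fun hsq (ρ σ⁻¹ w)
    have e : ρ σ (ρ σ⁻¹ w) = w := LinearMap.congr_fun (hinv σ) w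
    simp only [LinearMap.add_apply, LinearMap.sub_apply, LinearMap.smul_apply, Module.End.mul_apply,
      Module.End.one_apply, LinearMap.zero_apply, e] at h ⊢
    rw [← sub_eq_zero]
    refine Eq.trans ?_ h
    abel
  -- every element, by Chebotarev
  obtain ⟨L₁, hL₁, hR1⟩ := galRep_finite_level Y
  have hgood : ∀ g : Γℚ, ∃ c : k, ρ g + χ g • ρ g⁻¹ = c • (1 : Module.End k V) :=
    exists_scalar_of_frobenius ρ χ (fun τ hτ => LinearMap.ext fun w => Subtype.ext (by
      show (R τ).mulVec (w : Fin (latRank M) → k) = w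
      rw [show R τ = 1 by show ιk.mapMatrix (galRep Y τ) = 1; rw [hR1 τ hτ, map_one],
        Matrix.one_mulVec])) hχL M.primeFactors fun p hp hpS A hAp σ hσ =>
      ⟨_, hgoodF p hp (fun h => hpS (Nat.mem_primeFactors.mpr ⟨hp, h, NeZero.ne M⟩)) A hAp σ hσ⟩
  choose c hc using hgood
  obtain ⟨τ, hdet, htr, hker⟩ := exists_twoDim_of_scalar ρ χ c hc
  have hτone : ∀ g, galRep Y g = 1 → χ g = 1 → τ g = 1 := fun g h1 => hker g <|
    LinearMap.ext fun w => Subtype.ext (by
      show (R g).mulVec (w : Fin (latRank M) → k) = w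
      rw [show R g = 1 by show ιk.mapMatrix (galRep Y g) = 1; rw [h1, map_one], Matrix.one_mulVec])
  refine ⟨τ.toHomUnits, ⟨L₁ ⊔ L₂, inferInstance, fun σ hσ => Units.ext ?_⟩,
    fun p hp hpM A hAp => ⟨fun σ hσ => Units.ext ?_, fun σ hσ a e ha he => ⟨?_, ?_⟩⟩⟩
  · exact hτone σ (hR1 σ fun x hx => hσ x ((le_sup_left : L₁ ≤ L₁ ⊔ L₂) hx))
      (hχL σ fun x hx => hσ x ((le_sup_right : L₂ ≤ L₁ ⊔ L₂) hx))
  · have hpM' : ¬ p ∣ M * ℓ := fun h =>
      (hp.dvd_mul.mp h).elim hpM fun h => hpM (h.mul_left N)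
    exact hτone σ (galRep_eq_one Y (Y.unramified p hp hpM' A hAp σ hσ))
      ((hχ p hp (fun h => hpM (h.mul_right ℓ)) A hAp).1 σ hσ)
  · show (τ σ).trace = _
    rw [htr, ← (hθ p hp hpM a e ha he).1]
    have h : c σ • (1 : Module.End k V) = θ (tGen (N * ℓ) hp hpM) • (1 : Module.End k V) :=
      (hc σ).symm.trans (hgoodF p hp hpM A hAp σ hσ)
    obtain ⟨w, hw⟩ := exists_ne (0 : V)
    exact smul_left_injective k hw (LinearMap.congr_fun h w)
  · show (τ σ).det = _
    rw [hdet, (hχ p hp (fun h => hpM (h.mul_right ℓ)) A hAp).2 σ hσ]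
    exact congrArg φ (Subtype.ext he.symm)

end Fermat.Agent.WeightOneGalois
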