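import Fermat.Prelude.Thm_CuspFormClass_isZeroAt_heckeT
import Fermat.Prelude.Thm_CuspFormClass_isZeroAt_heckeU
import Fermat.Agent.Grp.HomCl
import Fermat.Agent.Hecke.Periods
import Fermat.Agent.MF.CuspChar
import Fermat.Agent.Periods.MaxPrinciple
import Fermat.Agent.Periods.PeriodMap
import Fermat.Agent.WeightOneGalois.Period.Level

/-!
# Weight-two cusp forms of `GT M`, their operators and periods

The period homomorphism is injective and intertwines `T_p` and the diamonds with transfer and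
conjugation; this is what makes the Hecke ring act faithfully on the lattice.
-/

noncomputable section

open UpperHalfPlane hiding I
open CongruenceSubgroup Filter Topology Complex Function
open scoped MatrixGroups ModularForm Manifold
open Fermat.Agent.Periods (IsPrimitive)

namespace Fermat.Agent.WeightOneGalois

variable (M : ℕ) [NeZero M]

/-- Weight-two cusp forms on `GT M`. -/
def S2 : Submodule ℂ (ℍ → ℂ) where
  carrier := {F | MF.IsCuspFn (GT M) 2 F}
  zero_mem' := ⟨MF.IsFormFn.zero, fun γ => by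
    rw [SlashAction.zero_slash]; exact Filter.zero_zeroAtFilter _⟩
  add_mem' := fun {F G} hF hG => ⟨hF.form.add hG.form, fun γ => by
    rw [SlashAction.add_slash]; exact (hF.zero γ).add (hG.zero γ)⟩
  smul_mem' := fun c {F} hF => ⟨hF.form.smul c, fun γ => by
    rw [ModularForm.SL_smul_slash]; exact (hF.zero γ).smul c⟩

variable {M}

omit [NeZero M] in
/-- `F ∣ σ` only depends on the lower right entry of `σ ∈ Γ₀(M²)` modulo `M`. -/
theorem slash_congr {F : ℍ → ℂ} (hF : F ∈ S2 M) {c σ : SL(2, ℤ)} (hc : c ∈ Gamma0 (M ^ 2))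
    (hσ : σ ∈ Gamma0 (M ^ 2)) (h : (c 1 1 : ZMod M) = (σ 1 1 : ZMod M)) :
    F ∣[(2 : ℤ)] c = F ∣[(2 : ℤ)] σ := by
  have e : c = (c * σ⁻¹) * σ := by rw [inv_mul_cancel_right]
  conv_lhs => rw [e, SlashAction.slash_mul, hF.form.slash_eq _ (mul_inv_mem_GT hc hσ h)]

omit [NeZero M] in
theorem slash_mem {F : ℍ → ℂ} (hF : F ∈ S2 M) {σ : SL(2, ℤ)} (hσ : σ ∈ Gamma0 (M ^ 2)) :
    F ∣[(2 : ℤ)] σ ∈ S2 M := by
  refine ⟨⟨fun γ hγ => ?_, ?_, fun γ => ?_⟩, fun γ => ?_⟩
  · rw [← SlashAction.slash_mul, show σ * γ = (σ * γ * σ⁻¹) * σ by rw [inv_mul_cancel_right],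
      SlashAction.slash_mul, hF.form.slash_eq _ (conj_mem_GT hσ hγ)]
  · rw [ModularForm.SL_slash]; exact hF.form.mdiff.slash 2 _
  · rw [← SlashAction.slash_mul]; exact hF.form.bdd _
  · rw [← SlashAction.slash_mul]; exact hF.zero _

/-- `T_p` on functions. -/
def tFun (p : ℕ) (δ : SL(2, ℤ)) (F : ℍ → ℂ) : ℍ → ℂ :=
  ∑ i, F ∣[(2 : ℤ)] repGL p δ i

theorem tFun_eq (p : ℕ) (δ : SL(2, ℤ)) (F : ℍ → ℂ) :
    tFun p δ F =
      ModularForm.heckeU 2 p F + (F ∣[(2 : ℤ)] δ) ∣[(2 : ℤ)] ModularForm.heckeDiagMatrix p := by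
  rw [tFun, Fintype.sum_option, ModularForm.heckeU_def, Finset.sum_range, add_comm]
  simp only [repGL, SlashAction.slash_mul, ModularForm.SL_slash]

section Hecke

variable {p : ℕ} {δ : SL(2, ℤ)}

omit [NeZero M] in
/-- `T_p` commutes with `Γ₀(M²)`. -/
theorem tFun_slash (hp : p.Prime) (hpM : ¬ p ∣ M) (hδ : IsDiaRep M p δ) {F : ℍ → ℂ}
    (hF : F ∈ S2 M) {σ : SL(2, ℤ)} (hσ : σ ∈ Gamma0 (M ^ 2)) :
    tFun p δ F ∣[(2 : ℤ)] σ = tFun p δ (F ∣[(2 : ℤ)] σ) := by
  obtain ⟨π, c, hπ, h⟩ := exists_steps hp hpM hδ hσ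
  rw [tFun, tFun, SlashAction.sum_slash, ← (Equiv.ofBijective π hπ).sum_comp
    (fun i => (F ∣[(2 : ℤ)] σ) ∣[(2 : ℤ)] repGL p δ i)]
  refine Finset.sum_congr rfl fun i _ => ?_
  rw [ModularForm.SL_slash, ← SlashAction.slash_mul, repGL_mul hp.ne_zero (h i).2.2,
    SlashAction.slash_mul, ← ModularForm.SL_slash, slash_congr hF (h i).1 hσ (h i).2.1]
  rfl

theorem tFun_mem (hp : p.Prime) (hpM : ¬ p ∣ M) (hδ : IsDiaRep M p δ) {F : ℍ → ℂ}
    (hF : F ∈ S2 M) : tFun p δ F ∈ S2 M := by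
  set G := F ∣[(2 : ℤ)] δ
  have hG : G ∈ S2 M := slash_mem hF hδ.1
  have hz : ∀ γ : SL(2, ℤ), IsZeroAtImInfty (tFun p δ F ∣[(2 : ℤ)] γ) := fun γ => by
    have hc : IsCusp ((γ : GL (Fin 2) ℝ) • OnePoint.infty) (GT M : Subgroup (GL (Fin 2) ℝ)) := by
      rw [Subgroup.IsArithmetic.isCusp_iff_isCusp_SL2Z, isCusp_SL2Z_iff']
      exact ⟨γ, rfl⟩
    have h1 := (OnePoint.isZeroAt_iff rfl).mp
      (CuspFormClass.isZeroAt_heckeU hF.toCuspForm p hc)
    have h2 := (OnePoint.isZeroAt_iff rfl).mp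
      (CuspFormClass.isZeroAt_heckeU hG.toCuspForm p hc)
    have h3 := (OnePoint.isZeroAt_iff rfl).mp
      (CuspFormClass.isZeroAt_heckeT hG.toCuspForm p hc)
    have e : tFun p δ F = ModularForm.heckeU 2 p F +
        (ModularForm.heckeT 2 p G + (-1 : ℂ) • ModularForm.heckeU 2 p G) := by
      rw [tFun_eq, ModularForm.heckeT_eq_heckeU_add, neg_one_smul]
      abel
    rw [e, SlashAction.add_slash, SlashAction.add_slash, ModularForm.SL_smul_slash]
    simp only [ModularForm.SL_slash]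
    exact h1.add (h3.add (h2.smul (-1)))
  refine ⟨⟨fun γ hγ => ?_, ?_, fun γ => (hz γ).isBoundedAtImInfty⟩, hz⟩
  · rw [tFun_slash hp hpM hδ hF hγ.1, hF.form.slash_eq γ hγ]
  · exact Finset.sum_induction _ (fun g : ℍ → ℂ => MDiff g) (fun _ _ ha hb => ha.add hb)
        mdifferentiable_const
      fun i _ => hF.form.mdiff.slash 2 _

end Hecke

/-! ### Periods -/

omit [NeZero M] in
theorem conj_T_zpow_mem_GT (δ : SL(2, ℤ)) {m : ℤ} (hm : ((M ^ 2 : ℕ) : ℤ) ∣ m) :
    δ * ModularGroup.T ^ m * δ⁻¹ ∈ GT M :=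
  Gamma_sq_le_GT M ((Gamma_normal _).conj_mem _ (ModularGroup_T_pow_mem_Gamma _ m hm) δ)

omit [NeZero M] in
theorem slash_periodic' {F : ℍ → ℂ} (hF : F ∈ S2 M) (δ : SL(2, ℤ)) :
    Periodic ((F ∣[(2 : ℤ)] δ) ∘ ofComplex) ((M ^ 2 : ℕ) : ℝ) := by
  intro w
  by_cases! hw : 0 < w.im
  · have hw' : 0 < (w + (((M ^ 2 : ℕ) : ℝ) : ℂ)).im := by
      rw [Complex.ofReal_natCast, Complex.add_im, Complex.natCast_im, add_zero]; exact hw
    simp only [Function.comp_apply, ofComplex_apply_of_im_pos hw', ofComplex_apply_of_im_pos hw]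
    set τ : ℍ := ⟨w, hw⟩
    set g : ℍ → ℂ := F ∣[(2 : ℤ)] δ with hgdef
    have key : (g ∣[(2 : ℤ)] (ModularGroup.T ^ ((M ^ 2 : ℕ) : ℤ))) τ = g τ := by
      rw [hgdef, ← SlashAction.slash_mul]
      have : δ * ModularGroup.T ^ ((M ^ 2 : ℕ) : ℤ) =
          (δ * ModularGroup.T ^ ((M ^ 2 : ℕ) : ℤ) * δ⁻¹) * δ := by group
      rw [this, SlashAction.slash_mul, hF.form.slash_eq _ (conj_T_zpow_mem_GT δ dvd_rfl)]
    rw [Periods.slash_T_zpow] at key
    convert key using 2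
    ext
    simp [τ, add_comm]
  · have hw' : (w + (((M ^ 2 : ℕ) : ℝ) : ℂ)).im ≤ 0 := by
      rw [Complex.ofReal_natCast, Complex.add_im, Complex.natCast_im, add_zero]; exact hw
    simp only [Function.comp_apply, ofComplex_apply_of_im_nonpos hw',
      ofComplex_apply_of_im_nonpos hw]

theorem exists_prim {F : ℍ → ℂ} (hF : F ∈ S2 M) (δ : SL(2, ℤ)) :
    ∃ P : ℍ → ℂ, IsPrimitive (F ∣[(2 : ℤ)] δ) P ∧ Tendsto P atImInfty (𝓝 0) :=
  Periods.exists_primitive_of_periodic (Nat.cast_pos.mpr (NeZero.pos (M ^ 2)))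
    (slash_periodic' hF δ) (by rw [ModularForm.SL_slash]; exact hF.form.mdiff.slash 2 _)
    (hF.zero δ)

theorem exists_prim' (F : S2 M) : ∃ P : ℍ → ℂ, IsPrimitive (F : ℍ → ℂ) P := by
  obtain ⟨P, hP, -⟩ := exists_prim F.2 1
  exact ⟨P, by simpa using hP⟩

/-- A chosen primitive of a weight-two cusp form. -/
def prim (F : S2 M) : ℍ → ℂ := (exists_prim' F).choose

theorem prim_spec (F : S2 M) : IsPrimitive (F : ℍ → ℂ) (prim F) := (exists_prim' F).choose_spec

omit [NeZero M] in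
theorem prim_comp_eq (F : S2 M) {P : ℍ → ℂ} (hP : IsPrimitive (F : ℍ → ℂ) P) {γ : SL(2, ℤ)}
    (hγ : γ ∈ GT M) (z w : ℍ) : P (γ • z) - P z = P (γ • w) - P w := by
  have h := hP.comp_smul γ
  rw [F.2.form.slash_eq γ hγ] at h
  exact h.sub_eq_sub hP z w

/-- The periods of a form. -/
def per (F : S2 M) : Additive (GT M) →+ ℂ where
  toFun γ := prim F (((Additive.toMul γ : GT M) : SL(2, ℤ)) • UpperHalfPlane.I) -
    prim F UpperHalfPlane.I
  map_zero' := by simp
  map_add' γ γ' := by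
    set a : GT M := Additive.toMul γ
    set b : GT M := Additive.toMul γ'
    have h := prim_comp_eq F (prim_spec F) a.2 ((b : SL(2, ℤ)) • UpperHalfPlane.I) UpperHalfPlane.I
    show prim F (((a * b : GT M) : SL(2, ℤ)) • UpperHalfPlane.I) - _ = _
    rw [Subgroup.coe_mul, mul_smul]
    linear_combination h

theorem per_eq (F : S2 M) {P : ℍ → ℂ} (hP : IsPrimitive (F : ℍ → ℂ) P) (γ : GT M) (z : ℍ) :
    per F (Additive.ofMul γ) = P ((γ : SL(2, ℤ)) • z) - P z := by
  show prim F ((γ : SL(2, ℤ)) • UpperHalfPlane.I) - prim F UpperHalfPlane.I = _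
  rw [← prim_comp_eq F hP γ.2 UpperHalfPlane.I z]
  linear_combination (prim_spec F).sub_eq_sub hP ((γ : SL(2, ℤ)) • UpperHalfPlane.I)
      UpperHalfPlane.I

/-- The period map. -/
def perLin : S2 M →ₗ[ℂ] (Additive (GT M) →+ ℂ) where
  toFun := per
  map_add' F G := AddMonoidHom.ext fun γ => by
    obtain ⟨γ, rfl⟩ := Additive.ofMul.surjective γ
    rw [AddMonoidHom.add_apply, per_eq _ ((prim_spec F).add (prim_spec G)) γ UpperHalfPlane.I,
      per_eq F (prim_spec F) γ UpperHalfPlane.I, per_eq G (prim_spec G) γ UpperHalfPlane.I,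
      Pi.add_apply, Pi.add_apply]
    ring
  map_smul' a F := AddMonoidHom.ext fun γ => by
    obtain ⟨γ, rfl⟩ := Additive.ofMul.surjective γ
    rw [per_eq _ ((prim_spec F).const_smul a) γ UpperHalfPlane.I, RingHom.id_apply]
    show _ = a • per F (Additive.ofMul γ)
    rw [per_eq F (prim_spec F) γ UpperHalfPlane.I, Pi.smul_apply, Pi.smul_apply, smul_eq_mul,
      smul_eq_mul, smul_eq_mul]
    ring

theorem tendsto_prim_smul (F : S2 M) (δ : SL(2, ℤ)) :
    ∃ L : ℂ, Tendsto (fun w : ℍ => prim F (δ • w)) atImInfty (𝓝 L) := by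
  obtain ⟨P, hP, hP0⟩ := exists_prim F.2 δ
  refine ⟨prim F (δ • UpperHalfPlane.I) - P UpperHalfPlane.I, ?_⟩
  have := (tendsto_const_nhds
    (x := prim F (δ • UpperHalfPlane.I) - P UpperHalfPlane.I)).add hP0
  rw [add_zero] at this
  refine this.congr fun w => ?_
  linear_combination -(((prim_spec F).comp_smul δ).sub_eq_sub hP w UpperHalfPlane.I)

/-- Periods kill elliptic and parabolic elements. -/
theorem per_isClHom (F : S2 M) : Grp.IsClHom (GT M) (per F) := by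
  refine (Grp.isParabolicHom_iff_isClHom (neg_one_mem_GT M) _).mp fun γ hγ => ?_
  obtain ⟨δ, h10, -⟩ := Periods.exists_conj_upper_of_trace_sq (γ : SL(2, ℤ)) hγ
  set U : SL(2, ℤ) := δ⁻¹ * (γ : SL(2, ℤ)) * δ with hU
  have hto : Tendsto (fun w : ℍ => U • w) atImInfty atImInfty := by
    refine tendsto_smul_atImInfty (g := (U : GL (Fin 2) ℝ)) ?_
    simp [h10]
  obtain ⟨L, hL⟩ := tendsto_prim_smul F δ
  have h1 : Tendsto (fun w : ℍ => prim F (δ • (U • w)) - prim F (δ • w)) atImInfty (𝓝 0) := by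
    have := (hL.comp hto).sub hL
    rwa [sub_self] at this
  have h2 : Tendsto (fun w : ℍ => prim F (δ • (U • w)) - prim F (δ • w))
      atImInfty (𝓝 (per F (Additive.ofMul γ))) := by
    refine tendsto_const_nhds.congr fun w => ?_
    rw [per_eq F (prim_spec F) γ (δ • w), hU, ← mul_smul, ← mul_smul]
    congr 2
    group
  exact tendsto_nhds_unique h2 h1

/-- A cusp form with vanishing periods is zero. -/
theorem per_injective {F : S2 M} (h : per F = 0) : F = 0 := by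
  have hconst : ∀ z w, prim F z = prim F w := by
    refine Periods.eq_const_of_re_period_eq_zero (N := M ^ 2) (GT M)
      (fun δ => conj_T_zpow_mem_GT δ dvd_rfl) (prim_spec F).mdifferentiable ?_ (tendsto_prim_smul F)
    intro γ hγ
    refine ⟨0, rfl, fun z => ?_⟩
    have := per_eq F (prim_spec F) ⟨γ, hγ⟩ z
    rw [h, AddMonoidHom.zero_apply] at this
    rw [add_zero]
    exact (sub_eq_zero.mp this.symm)
  refine Subtype.ext (funext fun z => ?_)
  have h0 : HasDerivAt (prim F ∘ ofComplex) 0 (z : ℂ) := by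
    have : prim F ∘ ofComplex = fun _ => prim F z := funext fun x => hconst _ _
    rw [this]
    exact hasDerivAt_const _ _
  exact (prim_spec F z).unique h0

/-- Periods of `F ∣ σ`. -/
theorem per_slash (F G : S2 M) {σ : SL(2, ℤ)} (hG : (G : ℍ → ℂ) = (F : ℍ → ℂ) ∣[(2 : ℤ)] σ)
    (γ c : GT M) (hc : σ * (γ : SL(2, ℤ)) * σ⁻¹ = (c : SL(2, ℤ))) :
    per G (Additive.ofMul γ) = per F (Additive.ofMul c) := by
  have hP : IsPrimitive (G : ℍ → ℂ) (fun z => prim F (σ • z)) := by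
    rw [hG]; exact (prim_spec F).comp_smul σ
  rw [per_eq G hP γ UpperHalfPlane.I, per_eq F (prim_spec F) c (σ • UpperHalfPlane.I), ← hc,
    ← mul_smul, ← mul_smul, inv_mul_cancel_right]

/-- Periods of `T_p F` are the transfer. -/
theorem per_tFun {p : ℕ} {δ : SL(2, ℤ)} (hp : p ≠ 0) (F G : S2 M)
    (hG : (G : ℍ → ℂ) = tFun p δ F) (γ : GT M) (π : Option (Fin p) → Option (Fin p))
    (hπ : Function.Bijective π) (c : Option (Fin p) → GT M)
    (h : ∀ i, heckeRep p δ i * ((γ : SL(2, ℤ)) : Matrix (Fin 2) (Fin 2) ℤ) =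
      ((c i : SL(2, ℤ)) : Matrix (Fin 2) (Fin 2) ℤ) * heckeRep p δ (π i)) :
    per G (Additive.ofMul γ) = ∑ i, per F (Additive.ofMul (c i)) := by
  have hP : IsPrimitive (G : ℍ → ℂ) (∑ i, fun z => prim F (repGL p δ i • z)) := by
    rw [hG, tFun]
    exact Hecke.IsPrimitive.sum _ fun i _ =>
      Hecke.isPrimitive_comp_gl (prim_spec F) _ (repGL_det_pos i)
  rw [per_eq G hP γ UpperHalfPlane.I, Finset.sum_apply, Finset.sum_apply,
    ← (Equiv.ofBijective π hπ).sum_comp (fun i => prim F (repGL p δ i • UpperHalfPlane.I)),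
    ← Finset.sum_sub_distrib]
  refine Finset.sum_congr rfl fun i _ => ?_
  rw [per_eq F (prim_spec F) (c i) (repGL p δ (π i) • UpperHalfPlane.I), Equiv.ofBijective_apply]
  simp only [ModularGroup.sl_moeb, ← mul_smul, repGL_mul hp (h i)]

end Fermat.Agent.WeightOneGalois
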