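import Fermat.Prelude.Thm_UpperHalfPlane_qCoeff_heckeT
import Fermat.Prelude.Thm_UpperHalfPlane_qCoeff_heckeU
import Fermat.Agent.WeightOneGalois.Period.Periods

/-!
# The operators on `q`-expansions; they commute

`T_p` and the diamonds on weight-two cusp forms of `GT M` commute, so that they generate the
commutative ring of `Period/Algebra`.
-/

noncomputable section

open CongruenceSubgroup UpperHalfPlane ModularFormClass
open scoped MatrixGroups ModularForm Manifold

namespace Fermat.Agent.WeightOneGalois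

variable {M : ℕ} [NeZero M]

omit [NeZero M] in
theorem isQFn_of_mem {F : ℍ → ℂ} (hF : F ∈ S2 M) : MF.IsQFn F := hF.form.isQFn (T_mem_GT M)

theorem qCoeff_add' {F G : ℍ → ℂ} (hF : MF.IsQFn F) (hG : MF.IsQFn G) (n : ℕ) :
    qCoeff (F + G) n = qCoeff F n + qCoeff G n := by
  simp [qCoeff, qExpansion_add hF.analyticAt hG.analyticAt]

theorem qCoeff_sub' {F G : ℍ → ℂ} (hF : MF.IsQFn F) (hG : MF.IsQFn G) (n : ℕ) :
    qCoeff (F - G) n = qCoeff F n - qCoeff G n := by
  simp [qCoeff, qExpansion_sub hF.analyticAt hG.analyticAt]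

theorem qCoeff_smul' {F : ℍ → ℂ} (hF : MF.IsQFn F) (c : ℂ) (n : ℕ) :
    qCoeff (c • F) n = c * qCoeff F n := by
  simp [qCoeff, qExpansion_smul hF.analyticAt]

theorem eq_of_qCoeff {F G : ℍ → ℂ} (hF : MF.IsQFn F) (hG : MF.IsQFn G)
    (h : ∀ n, qCoeff F n = qCoeff G n) : F = G :=
  (MF.lq_inj hF hG).mp (by rw [MF.lq, MF.lq, PowerSeries.ext h])

/-- The coefficients of `T_p F`. -/
theorem qCoeff_tFun {p : ℕ} {δ : SL(2, ℤ)} (hp : p.Prime) (hpM : ¬ p ∣ M) (hδ : IsDiaRep M p δ)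
    {F : ℍ → ℂ} (hF : F ∈ S2 M) (n : ℕ) :
    qCoeff (tFun p δ F) n =
      qCoeff F (n * p) + if p ∣ n then (p : ℂ) * qCoeff (F ∣[(2 : ℤ)] δ) (n / p) else 0 := by
  set G := F ∣[(2 : ℤ)] δ
  have hG : MF.IsQFn G := isQFn_of_mem (slash_mem hF hδ.1)
  have hF' := isQFn_of_mem hF
  have hT := isQFn_of_mem (tFun_mem hp hpM hδ hF)
  have hper : ∀ {H : ℍ → ℂ}, MF.IsQFn H → Function.Periodic (H ∘ ofComplex) (1 : ℂ) :=
    fun {H} hH => by simpa using hH.periodic
  have hd : G ∣[(2 : ℤ)] ModularForm.heckeDiagMatrix p =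
      fun τ => (p : ℂ) ^ ((2 : ℤ) - 1) * G (ModularForm.heckeDiagMatrix p • τ) :=
    funext fun τ => ModularForm.slash_heckeDiagMatrix_apply 2 hp.ne_zero G τ
  have hU : MF.IsQFn (ModularForm.heckeU 2 p F) := by
    have hpp : MF.IsQFn (G ∣[(2 : ℤ)] ModularForm.heckeDiagMatrix p) := by
      refine ⟨fun w => ?_, hG.mdiff.slash 2 _, ?_⟩
      · simp only [Function.comp_apply, hd]
        congr 1
        by_cases hw : 0 < w.im
        · have hw' : 0 < (w + ((1 : ℝ) : ℂ)).im := by simpa using hw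
          rw [ofComplex_apply_of_im_pos hw, ofComplex_apply_of_im_pos hw']
          have h1 : ∀ τ : ℍ, G (ModularForm.heckeDiagMatrix p • τ) =
              (G ∘ ofComplex) ((p : ℂ) * τ) := fun τ => by
            rw [Function.comp_apply, ← ModularForm.coe_heckeDiagMatrix_smul hp.ne_zero,
              ofComplex_apply]
          rw [h1, h1]
          show (G ∘ ofComplex) ((p : ℂ) * (w + ((1 : ℝ) : ℂ))) = (G ∘ ofComplex) ((p : ℂ) * w)
          rw [Complex.ofReal_one, mul_add, mul_one]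
          simpa using (hper hG).nat_mul p ((p : ℂ) * w)
        · have hw' : (w + ((1 : ℝ) : ℂ)).im ≤ 0 := by simpa using hw
          rw [ofComplex_apply_of_im_nonpos hw', ofComplex_apply_of_im_nonpos (not_lt.mp hw)]
      · rw [hd]
        exact (hG.bdd.comp_tendsto (tendsto_smul_atImInfty
          (g := ModularForm.heckeDiagMatrix p) (by simp [hp.ne_zero]))).const_mul_left _
    have e : ModularForm.heckeU 2 p F = tFun p δ F -
        G ∣[(2 : ℤ)] ModularForm.heckeDiagMatrix p := by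
      rw [tFun_eq, add_sub_cancel_right]
    rw [e]
    exact hT.sub hpp
  have e1 := UpperHalfPlane.qCoeff_heckeU (hper hF') hF'.mdiff hF'.bdd 2 hp.ne_zero n
  have e2 := UpperHalfPlane.qCoeff_heckeU (hper hG) hG.mdiff hG.bdd 2 hp.ne_zero n
  have e3 := UpperHalfPlane.qCoeff_heckeT (hper hG) hG.mdiff hG.bdd 2 hp.ne_zero n
  -- `T_p F - U_p F = T_p G - U_p G` on coefficients
  have e4 : tFun p δ F - ModularForm.heckeU 2 p F =
      ModularForm.heckeT 2 p G - ModularForm.heckeU 2 p G := by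
    rw [tFun_eq, ModularForm.heckeT_eq_heckeU_add]; abel
  have hUG : MF.IsQFn (ModularForm.heckeU 2 p G) := by
    have hT' := isQFn_of_mem (tFun_mem hp hpM hδ (slash_mem hF hδ.1))
    have hpp' : ModularForm.heckeU 2 p G = tFun p δ G -
        (G ∣[(2 : ℤ)] δ) ∣[(2 : ℤ)] ModularForm.heckeDiagMatrix p := by
      rw [tFun_eq, add_sub_cancel_right]
    refine ⟨?_, ?_, ?_⟩
    · intro w
      have hsum : ∀ τ : ℍ, ModularForm.heckeU 2 p G τ =
          (p : ℂ)⁻¹ * ∑ j ∈ Finset.range p, (G ∘ ofComplex) (((τ : ℂ) + j) / p) := fun τ => by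
        rw [ModularForm.heckeU_apply 2 hp.ne_zero]
        simp only [Function.comp_apply, ← ModularForm.coe_heckeMatrix_smul hp.ne_zero,
          ofComplex_apply]
      by_cases hw : 0 < w.im
      · have hw' : 0 < (w + ((1 : ℝ) : ℂ)).im := by simpa using hw
        simp only [Function.comp_apply, ofComplex_apply_of_im_pos hw, ofComplex_apply_of_im_pos hw',
          hsum]
        congr 1
        show ∑ j ∈ Finset.range p, (G ∘ ofComplex) ((w + ((1 : ℝ) : ℂ) + j) / p) =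
          ∑ j ∈ Finset.range p, (G ∘ ofComplex) ((w + j) / p)
        rw [← sub_eq_zero, ← Finset.sum_sub_distrib]
        have := Finset.sum_range_sub (fun j : ℕ => (G ∘ ofComplex) ((w + j) / p)) p
        simp only [Nat.cast_succ] at this
        simp only [Complex.ofReal_one, add_assoc, add_comm (1 : ℂ)]
        rw [this, Nat.cast_zero, add_zero, add_div, div_self (Nat.cast_ne_zero.mpr hp.ne_zero),
          hper hG (w / p), sub_self]
      · have hw' : (w + ((1 : ℝ) : ℂ)).im ≤ 0 := by simpa using hw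
        simp only [Function.comp_apply]
        rw [ofComplex_apply_of_im_nonpos hw', ofComplex_apply_of_im_nonpos (not_lt.mp hw)]
    · exact Finset.sum_induction _ (fun g : ℍ → ℂ => MDiff g) (fun _ _ ha hb => ha.add hb)
        mdifferentiable_const fun i _ => hG.mdiff.slash 2 _
    · refine Finset.sum_induction _ (fun g : ℍ → ℂ => IsBoundedAtImInfty g)
        (fun _ _ ha hb => ha.add hb) (Filter.const_boundedAtFilter _ 0) fun i _ => ?_
      rw [show G ∣[(2 : ℤ)] ModularForm.heckeMatrix p i =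
        fun τ => (p : ℂ)⁻¹ * G (ModularForm.heckeMatrix p i • τ) from
          funext fun τ => ModularForm.slash_heckeMatrix_apply 2 hp.ne_zero i G τ]
      exact (hG.bdd.comp_tendsto (tendsto_smul_atImInfty
        (g := ModularForm.heckeMatrix p i) (by simp [hp.ne_zero]))).const_mul_left _
  have hTG : MF.IsQFn (ModularForm.heckeT 2 p G) := by
    have : ModularForm.heckeT 2 p G = tFun p δ F - ModularForm.heckeU 2 p F +
        ModularForm.heckeU 2 p G := by rw [e4]; abel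
    rw [this]
    exact (hT.sub hU).add hUG
  have e5 := congrArg (fun H => qCoeff H n) e4
  simp only [qCoeff_sub' hT hU, qCoeff_sub' hTG hUG, e1, e2, e3] at e5
  rw [ModularForm.coeffHeckeT_eq_coeffHeckeU_add, add_sub_cancel_left,
    ModularForm.coeffHeckeU_apply, sub_eq_iff_eq_add] at e5
  rw [e5, add_comm]
  simp

variable (M)

/-- A chosen diamond representative. -/
def dia {p : ℕ} (hp : p.Prime) (hpM : ¬ p ∣ M) : SL(2, ℤ) :=
  (exists_isDiaRep M (hp.coprime_iff_not_dvd.mpr hpM)).choose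

omit [NeZero M] in
theorem dia_spec {p : ℕ} (hp : p.Prime) (hpM : ¬ p ∣ M) : IsDiaRep M p (dia M hp hpM) :=
  (exists_isDiaRep M (hp.coprime_iff_not_dvd.mpr hpM)).choose_spec

/-- `T_p` on `S₂`. -/
def tEnd {p : ℕ} (hp : p.Prime) (hpM : ¬ p ∣ M) : Module.End ℂ (S2 M) where
  toFun F := ⟨tFun p (dia M hp hpM) F, tFun_mem hp hpM (dia_spec M hp hpM) F.2⟩
  map_add' F G := Subtype.ext (by
    simp [tFun, Finset.sum_add_distrib])
  map_smul' c F := Subtype.ext (by
    simp only [RingHom.id_apply, SetLike.val_smul, tFun, Finset.smul_sum, ModularForm.smul_slash]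
    refine Finset.sum_congr rfl fun i _ => ?_
    rw [UpperHalfPlane.σ, if_pos (by
      rw [Matrix.GeneralLinearGroup.val_det_apply]; exact repGL_det_pos i)]
    rfl)

/-- `F ↦ F ∣ σ` on `S₂`. -/
def dEnd {σ : SL(2, ℤ)} (hσ : σ ∈ Gamma0 (M ^ 2)) : Module.End ℂ (S2 M) where
  toFun F := ⟨(F : ℍ → ℂ) ∣[(2 : ℤ)] σ, slash_mem F.2 hσ⟩
  map_add' F G := Subtype.ext (by simp)
  map_smul' c F := Subtype.ext (by
    show (c • (F : ℍ → ℂ)) ∣[(2 : ℤ)] σ = c • ((F : ℍ → ℂ) ∣[(2 : ℤ)] σ)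
    rw [ModularForm.SL_smul_slash])

/-- The diamond `⟨p⟩`. -/
def sEnd {p : ℕ} (hp : p.Prime) (hpM : ¬ p ∣ M) : Module.End ℂ (S2 M) :=
  dEnd M (dia_spec M hp hpM).1

variable {M}

omit [NeZero M] in
theorem dEnd_comm {σ τ : SL(2, ℤ)} (hσ : σ ∈ Gamma0 (M ^ 2)) (hτ : τ ∈ Gamma0 (M ^ 2)) :
    Commute (dEnd M hσ) (dEnd M hτ) := by
  refine LinearMap.ext fun F => Subtype.ext ?_
  show ((F : ℍ → ℂ) ∣[(2 : ℤ)] τ) ∣[(2 : ℤ)] σ = ((F : ℍ → ℂ) ∣[(2 : ℤ)] σ) ∣[(2 : ℤ)] τ
  rw [← SlashAction.slash_mul, ← SlashAction.slash_mul]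
  exact slash_congr F.2 (mul_mem hτ hσ) (mul_mem hσ hτ)
    (by rw [lowerRight_mul hτ, lowerRight_mul hσ, mul_comm])

theorem tEnd_dEnd_comm {p : ℕ} (hp : p.Prime) (hpM : ¬ p ∣ M) {σ : SL(2, ℤ)}
    (hσ : σ ∈ Gamma0 (M ^ 2)) : Commute (tEnd M hp hpM) (dEnd M hσ) := by
  refine LinearMap.ext fun F => Subtype.ext ?_
  exact (tFun_slash hp hpM (dia_spec M hp hpM) F.2 hσ).symm

/-- The Hecke operators commute. -/
theorem tEnd_comm {p q : ℕ} (hp : p.Prime) (hpM : ¬ p ∣ M) (hq : q.Prime) (hqM : ¬ q ∣ M) :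
    Commute (tEnd M hp hpM) (tEnd M hq hqM) := by
  rcases eq_or_ne p q with rfl | hne
  · exact Commute.refl _
  refine LinearMap.ext fun F => Subtype.ext ?_
  set δ := dia M hp hpM
  set ε := dia M hq hqM
  have hδ : IsDiaRep M p δ := dia_spec M hp hpM
  have hε : IsDiaRep M q ε := dia_spec M hq hqM
  show tFun p δ (tFun q ε F) = tFun q ε (tFun p δ F)
  refine eq_of_qCoeff (isQFn_of_mem (tFun_mem hp hpM hδ (tFun_mem hq hqM hε F.2)))
    (isQFn_of_mem (tFun_mem hq hqM hε (tFun_mem hp hpM hδ F.2))) fun n => ?_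
  have hco : Nat.Coprime p q := (Nat.coprime_primes hp hq).mpr hne
  have e : ((F : ℍ → ℂ) ∣[(2 : ℤ)] δ) ∣[(2 : ℤ)] ε = ((F : ℍ → ℂ) ∣[(2 : ℤ)] ε) ∣[(2 : ℤ)] δ := by
    rw [← SlashAction.slash_mul, ← SlashAction.slash_mul]
    exact slash_congr F.2 (mul_mem hδ.1 hε.1) (mul_mem hε.1 hδ.1)
      (by rw [lowerRight_mul hδ.1, lowerRight_mul hε.1, mul_comm])
  rw [qCoeff_tFun hp hpM hδ (tFun_mem hq hqM hε F.2), qCoeff_tFun hq hqM hε F.2,
    tFun_slash hq hqM hε F.2 hδ.1, qCoeff_tFun hq hqM hε (slash_mem F.2 hδ.1),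
    qCoeff_tFun hq hqM hε (tFun_mem hp hpM hδ F.2), qCoeff_tFun hp hpM hδ F.2,
    tFun_slash hp hpM hδ F.2 hε.1, qCoeff_tFun hp hpM hδ (slash_mem F.2 hε.1), e]
  have a1 : q ∣ n * p ↔ q ∣ n := Nat.Coprime.dvd_mul_right hco.symm
  have a2 : p ∣ n * q ↔ p ∣ n := Nat.Coprime.dvd_mul_right hco
  simp only [a1, a2]
  by_cases hp' : p ∣ n <;> by_cases hq' : q ∣ n
  · obtain ⟨m, rfl⟩ : p * q ∣ n := hco.mul_dvd_of_dvd_of_dvd hp' hq'
    have b1 : p * q * m / p = q * m := by rw [mul_assoc, Nat.mul_div_cancel_left _ hp.pos]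
    have b2 : p * q * m / q = p * m := by
      rw [mul_comm p q, mul_assoc, Nat.mul_div_cancel_left _ hq.pos]
    have b3 : p * q * m * p / q = p * m * p := by
      rw [show p * q * m * p = q * (p * m * p) by ring, Nat.mul_div_cancel_left _ hq.pos]
    have b4 : p * q * m * q / p = q * m * q := by
      rw [show p * q * m * q = p * (q * m * q) by ring, Nat.mul_div_cancel_left _ hp.pos]
    rw [if_pos hp', if_pos hq', b1, b2, b3, b4, if_pos (dvd_mul_right q m),
      if_pos (dvd_mul_right p m), Nat.mul_div_cancel_left _ hp.pos,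
      Nat.mul_div_cancel_left _ hq.pos, if_pos hp', if_pos hq', mul_right_comm (p * q * m) p q]
    ring
  · rw [if_pos hp', if_neg hq', if_pos hp', if_neg hq']
    obtain ⟨m, rfl⟩ := hp'
    rw [Nat.mul_div_cancel_left _ hp.pos, if_neg (fun h => hq' (h.mul_left p)),
      show p * m * q / p = m * q by rw [mul_assoc, Nat.mul_div_cancel_left _ hp.pos],
      mul_right_comm (p * m) p q]
    ring
  · rw [if_neg hp', if_pos hq', if_neg hp', if_pos hq']
    obtain ⟨m, rfl⟩ := hq'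
    rw [Nat.mul_div_cancel_left _ hq.pos, if_neg (fun h => hp' (h.mul_left q)),
      show q * m * p / q = m * p by rw [mul_assoc, Nat.mul_div_cancel_left _ hq.pos],
      mul_right_comm (q * m) p q]
    ring
  · rw [if_neg hp', if_neg hq', if_neg hp', if_neg hq', mul_right_comm n p q]

end Fermat.Agent.WeightOneGalois
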