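import Fermat.Agent.Periods.Range
import Fermat.Agent.WeightOneGalois.Period.Ops

/-!
# The commutative Hecke ring acts on the lattice of periods

`Λ ⊆ Hom(S₂, ℂ)` is generated by the period functionals.  Its dual sits in `Lat M` as the characters
killing the kernel, with a retraction.
-/

noncomputable section

open CongruenceSubgroup
open scoped MatrixGroups ModularForm

namespace Fermat.Agent.WeightOneGalois

variable (M : ℕ) [NeZero M]

/-- `x ↦ (F ↦ per F x)`. -/
def perStar : Additive (GT M) →+ (S2 M → ℂ) where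
  toFun x F := per F x
  map_zero' := funext fun _ => map_zero _
  map_add' x y := funext fun _ => map_add _ x y

/-- The period lattice. -/
def Lam : Submodule ℤ (S2 M → ℂ) := AddSubgroup.toIntSubmodule (perStar M).range

theorem perStar_mem (x : Additive (GT M)) : perStar M x ∈ Lam M := ⟨x, rfl⟩

instance finite_Lam : Module.Finite ℤ (Lam M) := by
  have := Periods.subgroup_fg_of_finiteIndex (GT M)
  refine Module.Finite.iff_fg.mpr ?_
  obtain ⟨S, hS⟩ := (Group.FG.out : (⊤ : Subgroup (GT M)).FG)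
  classical
  refine ⟨S.image fun s => perStar M (Additive.ofMul s), le_antisymm ?_ ?_⟩
  · refine Submodule.span_le.mpr fun y hy => ?_
    simp only [Finset.coe_image, Set.mem_image] at hy
    obtain ⟨s, -, rfl⟩ := hy
    exact perStar_mem M _
  · rintro _ ⟨x, rfl⟩
    obtain ⟨g, rfl⟩ := Additive.ofMul.surjective x
    have hg : g ∈ Subgroup.closure (S : Set (GT M)) := hS ▸ Subgroup.mem_top g
    show perStar M (Additive.ofMul g) ∈ _
    induction hg using Subgroup.closure_induction with
    | mem y hy => exact Submodule.subset_span (Finset.mem_coe.mpr (Finset.mem_image_of_mem _ hy))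
    | one => rw [ofMul_one, map_zero]; exact zero_mem _
    | mul a b _ _ ha hb => rw [ofMul_mul, map_add]; exact add_mem ha hb
    | inv a _ ha => rw [ofMul_inv, map_neg]; exact neg_mem ha

omit [NeZero M] in
/-- A point with prescribed sum of values, for every character. -/
theorem exists_sum_eq {ι : Type} [Fintype ι] (c : ι → GT M) :
    ∃ γ' : Additive (GT M), ∀ (A : Type) [AddCommMonoid A] (φ : Additive (GT M) →+ A),
      φ γ' = ∑ i, φ (Additive.ofMul (c i)) := by
  refine ⟨((Finset.univ : Finset ι).toList.map fun i => Additive.ofMul (c i)).sum, fun A _ φ => ?_⟩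
  rw [map_list_sum, List.map_map]
  exact Finset.sum_map_toList _ _

instance free_Lam : Module.Free ℤ (Lam M) := Module.free_of_finite_type_torsion_free'

/-- `s` preserves the period lattice. -/
def Stable (s : Module.End ℂ (S2 M)) : Prop :=
  ∀ γ : Additive (GT M), ∃ γ' : Additive (GT M), ∀ F, per (s F) γ = per F γ'

theorem per_add (F G : S2 M) : per (F + G) = per F + per G := (perLin (M := M)).map_add F G

theorem per_neg (F : S2 M) : per (-F) = -per F := (perLin (M := M)).map_neg F

theorem per_zero : per (0 : S2 M) = 0 := (perLin (M := M)).map_zero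

variable {M}

theorem stable_tEnd {p : ℕ} (hp : p.Prime) (hpM : ¬ p ∣ M) : Stable M (tEnd M hp hpM) := by
  intro x
  obtain ⟨γ, rfl⟩ := Additive.ofMul.surjective x
  obtain ⟨π, c, hπ, h⟩ := exists_steps hp hpM (dia_spec M hp hpM) γ.2.1
  have hc : ∀ i, c i ∈ GT M := fun i => ⟨(h i).1, (h i).2.1.symm ▸ γ.2.2⟩
  obtain ⟨γ', hγ'⟩ := exists_sum_eq M fun i => (⟨c i, hc i⟩ : GT M)
  refine ⟨γ', fun F => ?_⟩
  rw [hγ']
  exact per_tFun hp.ne_zero F _ rfl γ π hπ (fun i => ⟨c i, hc i⟩) fun i => (h i).2.2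

theorem stable_dEnd {σ : SL(2, ℤ)} (hσ : σ ∈ Gamma0 (M ^ 2)) : Stable M (dEnd M hσ) := by
  intro x
  obtain ⟨γ, rfl⟩ := Additive.ofMul.surjective x
  exact ⟨Additive.ofMul (⟨σ * γ * σ⁻¹, conj_mem_GT hσ γ.2⟩ : GT M),
    fun F => per_slash F _ rfl γ _ rfl⟩

variable (M)

/-- The operators preserving the lattice. -/
def stableSubring : Subring (Module.End ℂ (S2 M)) where
  carrier := {s | Stable M s}
  one_mem' γ := ⟨γ, fun _ => rfl⟩
  mul_mem' := fun {a b} ha hb γ => by
    obtain ⟨γ₁, h1⟩ := ha γ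
    obtain ⟨γ₂, h2⟩ := hb γ₁
    exact ⟨γ₂, fun F => (h1 (b F)).trans (h2 F)⟩
  add_mem' := fun {a b} ha hb γ => by
    obtain ⟨γ₁, h1⟩ := ha γ
    obtain ⟨γ₂, h2⟩ := hb γ
    exact ⟨γ₁ + γ₂, fun F => by
      rw [LinearMap.add_apply, per_add, AddMonoidHom.add_apply, h1, h2, map_add]⟩
  zero_mem' γ :=
      ⟨0, fun F => by rw [LinearMap.zero_apply, per_zero, map_zero, AddMonoidHom.zero_apply]⟩
  neg_mem' := fun {a} ha γ => by
    obtain ⟨γ₁, h1⟩ := ha γ
    exact ⟨-γ₁, fun F => by
      rw [LinearMap.neg_apply, per_neg, AddMonoidHom.neg_apply, h1, map_neg]⟩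

/-- The generators `T_p`, `⟨p⟩`. -/
def heckeGens : Set (Module.End ℂ (S2 M)) :=
  {s | ∃ (p : ℕ) (hp : p.Prime) (hpM : ¬ p ∣ M), s = tEnd M hp hpM ∨ s = sEnd M hp hpM}

/-- The Hecke ring away from the level. -/
def heckeAlg : Subring (Module.End ℂ (S2 M)) := Subring.closure (heckeGens M)

theorem heckeAlg_le_stable : heckeAlg M ≤ stableSubring M := Subring.closure_le.mpr (by
  rintro s ⟨p, hp, hpM, rfl | rfl⟩
  · exact stable_tEnd hp hpM
  · exact stable_dEnd _)

theorem heckeGens_comm : ∀ a ∈ heckeGens M, ∀ b ∈ heckeGens M, a * b = b * a := by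
  rintro a ⟨p, hp, hpM, rfl | rfl⟩ b ⟨q, hq, hqM, rfl | rfl⟩
  · exact tEnd_comm hp hpM hq hqM
  · exact tEnd_dEnd_comm hp hpM _
  · exact (tEnd_dEnd_comm hq hqM _).symm
  · exact dEnd_comm _ _

open scoped IsMulCommutative in
/-- The Hecke ring is commutative. -/
instance commRing_heckeAlg : CommRing (heckeAlg M) :=
  have : IsMulCommutative (heckeAlg M) :=
    Subring.isMulCommutative_closure (s := heckeGens M) (heckeGens_comm M)
  inferInstance

/-- `T_p` in the Hecke ring. -/
def tGen {p : ℕ} (hp : p.Prime) (hpM : ¬ p ∣ M) : heckeAlg M :=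
  ⟨tEnd M hp hpM, Subring.subset_closure ⟨p, hp, hpM, Or.inl rfl⟩⟩

/-- `⟨p⟩` in the Hecke ring. -/
def sGen {p : ℕ} (hp : p.Prime) (hpM : ¬ p ∣ M) : heckeAlg M :=
  ⟨sEnd M hp hpM, Subring.subset_closure ⟨p, hp, hpM, Or.inr rfl⟩⟩

theorem comp_mem_Lam (t : heckeAlg M) {x : S2 M → ℂ} (hx : x ∈ Lam M) :
    (fun F => x ((t : Module.End ℂ (S2 M)) F)) ∈ Lam M := by
  obtain ⟨γ, rfl⟩ := hx
  obtain ⟨γ', h⟩ := heckeAlg_le_stable M t.2 γ
  exact ⟨γ', funext fun F => (h F).symm⟩

/-- The action on the period lattice. -/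
def lamAct (t : heckeAlg M) : Module.End ℤ (Lam M) where
  toFun x := ⟨_, comp_mem_Lam M t x.2⟩
  map_add' _ _ := rfl
  map_smul' _ _ := rfl

/-- The rank of the period lattice. -/
def periodRank : ℕ := Module.finrank ℤ (Lam M)

/-- A chosen basis of the period lattice. -/
def lamBas : Module.Basis (Fin (periodRank M)) ℤ (Lam M) := Module.finBasis ℤ (Lam M)

/-- The action on the dual lattice, in matrices. -/
def dualMat : heckeAlg M →+* Matrix (Fin (periodRank M)) (Fin (periodRank M)) ℤ where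
  toFun t := (LinearMap.toMatrixAlgEquiv (lamBas M) (lamAct M t)).transpose
  map_one' := by
    show (LinearMap.toMatrixAlgEquiv (lamBas M) (1 : Module.End ℤ (Lam M))).transpose = 1
    rw [map_one, Matrix.transpose_one]
  map_mul' s t := by
    rw [← Matrix.transpose_mul, ← map_mul (LinearMap.toMatrixAlgEquiv (lamBas M))]
    refine congrArg _ (congrArg _ (LinearMap.ext fun x => Subtype.ext (funext fun F => ?_)))
    rfl
  map_zero' := by
    rw [show lamAct M 0 = 0 from LinearMap.ext fun x => Subtype.ext (funext fun F => ?_),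
      map_zero, Matrix.transpose_zero]
    obtain ⟨γ, hγ⟩ := x.2
    show (x : S2 M → ℂ) 0 = 0
    rw [← hγ]
    exact (congrArg (fun h : Additive (GT M) →+ ℂ => h γ) (per_zero M)).trans rfl
  map_add' s t := by
    rw [← Matrix.transpose_add, ← map_add]
    refine congrArg _ (congrArg _ (LinearMap.ext fun x => Subtype.ext (funext fun F => ?_)))
    obtain ⟨γ, hγ⟩ := x.2
    show (x : S2 M → ℂ) _ = (x : S2 M → ℂ) _ + (x : S2 M → ℂ) _
    rw [← hγ]
    exact congrArg (fun h : Additive (GT M) →+ ℂ => h γ) (per_add M _ _)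

theorem dualMat_injective : Function.Injective (dualMat M) := by
  refine (injective_iff_map_eq_zero _).mpr fun t ht => Subtype.ext (LinearMap.ext fun F => ?_)
  have h0 : lamAct M t = 0 :=
    (LinearMap.toMatrixAlgEquiv (lamBas M)).injective (by
      rw [map_zero]; exact Matrix.transpose_eq_zero.mp ht)
  refine per_injective (AddMonoidHom.ext fun γ => ?_)
  have := congrFun (congrArg Subtype.val (LinearMap.congr_fun h0 ⟨_, perStar_mem M γ⟩)) F
  exact this

/-- Coordinates of the periods of an element. -/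
def coord : Additive (GT M) →+ (Fin (periodRank M) → ℤ) :=
  ((lamBas M).equivFun.toLinearMap.toAddMonoidHom).comp
    ((perStar M).codRestrict (Lam M).toAddSubgroup (perStar_mem M))

/-- The dual of the period lattice inside `Lat M`. -/
def iota (v : Fin (periodRank M) → ℤ) : Lat M :=
  ⟨{ toFun := fun x => ∑ i, v i * coord M x i
     map_zero' := by simp
     map_add' := fun x y => by simp [mul_add, Finset.sum_add_distrib] }, fun γ hγ => by
    have h0 : coord M (Additive.ofMul γ) = 0 := by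
      show (lamBas M).equivFun ⟨perStar M _, _⟩ = 0
      rw [map_eq_zero_iff _ (lamBas M).equivFun.injective]
      exact Subtype.ext (funext fun F => per_isClHom F γ hγ)
    show ∑ i, v i * coord M (Additive.ofMul γ) i = 0
    simp [h0]⟩

theorem iota_apply (v : Fin (periodRank M) → ℤ) (x : Additive (GT M)) :
    ((iota M v : Lat M) : Additive (GT M) →+ ℤ) x = ∑ i, v i * coord M x i := rfl

/-- A retraction of `iota`, onto the dual of the period lattice. -/
def rho : Lat M →+ (Fin (periodRank M) → ℤ) where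
  toFun w i := (w : Additive (GT M) →+ ℤ) ((lamBas M i).2.choose)
  map_zero' := rfl
  map_add' _ _ := rfl

theorem rho_iota (v : Fin (periodRank M) → ℤ) : rho M (iota M v) = v := by
  funext i
  show ∑ j, v j * coord M ((lamBas M i).2.choose) j = v i
  have h : coord M ((lamBas M i).2.choose) = Pi.single i 1 := by
    show (lamBas M).equivFun ⟨perStar M _, _⟩ = _
    rw [show (⟨perStar M ((lamBas M i).2.choose), perStar_mem M _⟩ : Lam M) = lamBas M i from
      Subtype.ext (lamBas M i).2.choose_spec]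
    funext j
    rw [Module.Basis.equivFun_apply, Module.Basis.repr_self, Finsupp.single_apply, Pi.single_apply]
    simp [eq_comm]
  rw [h]
  simp [Pi.single_apply]

/-- An endomorphism of `Lat` given by the same transfer as `t` acts on the dual as `t`. -/
theorem iota_intertwine (t : heckeAlg M) (T : Module.End ℤ (Lat M))
    (h : ∀ γ : Additive (GT M), ∃ γ' : Additive (GT M),
      (∀ F, per ((t : Module.End ℂ (S2 M)) F) γ = per F γ') ∧
      ∀ w : Lat M, ((T w : Lat M) : Additive (GT M) →+ ℤ) γ =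
        (w : Additive (GT M) →+ ℤ) γ')
    (v : Fin (periodRank M) → ℤ) : T (iota M v) = iota M ((dualMat M t).mulVec v) := by
  refine Subtype.ext (AddMonoidHom.ext fun γ => ?_)
  obtain ⟨γ', h1, h2⟩ := h γ
  rw [h2, iota_apply, iota_apply]
  have hc : coord M γ' =
      (LinearMap.toMatrixAlgEquiv (lamBas M) (lamAct M t)).mulVec (coord M γ) := by
    funext i
    have e : (⟨perStar M γ', perStar_mem M γ'⟩ : Lam M) =
        lamAct M t ⟨perStar M γ, perStar_mem M γ⟩ :=
      Subtype.ext (funext fun F => (h1 F).symm)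
    show (lamBas M).equivFun ⟨perStar M γ', perStar_mem M γ'⟩ i = _
    rw [e]
    exact (congrFun (LinearMap.toMatrix_mulVec_repr (lamBas M) (lamBas M) (lamAct M t)
      ⟨perStar M γ, perStar_mem M γ⟩) i).symm
  rw [hc]
  show dotProduct v (Matrix.mulVec _ (coord M γ)) = dotProduct (Matrix.mulVec _ v) (coord M γ)
  rw [Matrix.dotProduct_mulVec, ← Matrix.mulVec_transpose]
  rfl

theorem intertwine_tGen {p : ℕ} (hp : p.Prime) (hpM : ¬ p ∣ M) {T : Module.End ℤ (Lat M)}
    (hT : ∀ v, IsHeckeImage M p (dia M hp hpM) v (T v)) (v : Fin (periodRank M) → ℤ) :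
    T (iota M v) = iota M ((dualMat M (tGen M hp hpM)).mulVec v) := by
  refine iota_intertwine M _ T (fun x => ?_) v
  obtain ⟨γ, rfl⟩ := Additive.ofMul.surjective x
  obtain ⟨π, c, hπ, h⟩ := exists_steps hp hpM (dia_spec M hp hpM) γ.2.1
  have hc : ∀ i, c i ∈ GT M := fun i => ⟨(h i).1, (h i).2.1.symm ▸ γ.2.2⟩
  obtain ⟨γ', hγ'⟩ := exists_sum_eq M fun i => (⟨c i, hc i⟩ : GT M)
  refine ⟨γ', fun F => ?_, fun w => ?_⟩
  · rw [hγ']
    exact per_tFun hp.ne_zero F _ rfl γ π hπ (fun i => ⟨c i, hc i⟩) fun i => (h i).2.2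
  · rw [hγ']
    exact hT w γ π (fun i => ⟨c i, hc i⟩) fun i => (h i).2.2

theorem intertwine_sGen {p : ℕ} (hp : p.Prime) (hpM : ¬ p ∣ M) {S : Module.End ℤ (Lat M)}
    (hS : ∀ v, IsDiaImage M (dia M hp hpM) v (S v)) (v : Fin (periodRank M) → ℤ) :
    S (iota M v) = iota M ((dualMat M (sGen M hp hpM)).mulVec v) := by
  refine iota_intertwine M _ S (fun x => ?_) v
  obtain ⟨γ, rfl⟩ := Additive.ofMul.surjective x
  exact ⟨Additive.ofMul (⟨_, conj_mem_GT (dia_spec M hp hpM).1 γ.2⟩ : GT M),
    fun F => per_slash F _ rfl γ _ rfl, fun w => hS w γ _ rfl⟩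

end Fermat.Agent.WeightOneGalois
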